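import Fermat.Agent.LTEnd.Norm
import Fermat.Agent.LT.RS.Def
import Fermat.Agent.ChebFull.Places

/-!
# The Hecke eigenvalues: from the Galois representation to `RS.LamInfo`
-/

set_option autoImplicit false

noncomputable section

namespace Fermat.Agent.LT.Top

open Matrix FLT.ExplicitLift NumberField WeierstrassCurve
open Fermat.Agent.LTEnd Fermat.Agent.Neb
open scoped MatrixGroups

local notation "Qb" => AlgebraicClosure ℚ
local notation "Γℚ" => (AlgebraicClosure ℚ ≃ₐ[ℚ] AlgebraicClosure ℚ)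
local notation "G3" => GL (Fin 2) (ZMod 3)
local notation "M3" => Matrix (Fin 2) (Fin 2) (ZMod 3)
local notation "MZ" => Matrix (Fin 2) (Fin 2) (ℤ√(-2))
local notation "M2" => Matrix (Fin 2) (Fin 2) ℂ

variable {K : Type*} [Field K] [NumberField K]

/-- The eigenvalues at the primes which split in `E` are the traces of Frobenius (every prime of
`K` which is inert over `ℚ` splits in `E`). -/
structure LamSpec (ρ : Γℚ →* G3) (Ψ : G3 →* GL (Fin 2) (ℤ√(-2))) (ι : ℤ√(-2) →+* ℂ) (N : ℕ)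
    (lam : 𝓞 K → ℝ) : Prop where
  split : ∀ p : ℕ, p.Prime → p % 3 = 1 → ¬ p ∣ N → ∀ A : ValuationSubring Qb,
    A.LiesOverPrime p → ∀ φ : Γℚ, A.IsFrobeniusAt φ p → ρ φ ∈ Q8 →
    ∀ ϖ : 𝓞 K, Prime ϖ → ϖ ∣ (p : 𝓞 K) → (lam ϖ : ℂ) = ι (Ψ (ρ φ) : MZ).trace
  inert : ∀ p : ℕ, p.Prime → p % 3 = 2 → ¬ p ∣ N → ∀ A : ValuationSubring Qb,
    A.LiesOverPrime p → ∀ φ : Γℚ, A.IsFrobeniusAt φ p →
    (lam (p : 𝓞 K) : ℂ) = ι (Ψ (ρ φ ^ 2) : MZ).trace

variable {Ψ : G3 →* GL (Fin 2) (ℤ√(-2))} {ι : ℤ√(-2) →+* ℂ}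

theorem tr_one : ι (Ψ 1 : MZ).trace = 2 := by
  rw [map_one, Units.val_one, Matrix.trace_one]
  simp [map_ofNat]

theorem tr_neg_one (hΨ : ∀ g, Matrix.GeneralLinearGroup.map red (Ψ g) = g) :
    ι (Ψ (-1) : MZ).trace = -2 := by
  have h := congrArg Matrix.trace (iota_lift_neg_one hΨ ι)
  rw [Matrix.trace_neg, Matrix.trace_one] at h
  have h2 : ((Ψ (-1) : MZ).map ι).trace = ι (Ψ (-1) : MZ).trace := by
    rw [Matrix.trace_fin_two, Matrix.trace_fin_two, map_add]
    rfl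
  rw [← h2, h]
  simp

/-- elements of order four in `SL₂(𝔽₃)` -/
theorem tr_ord4 (hΨ : ∀ g, Matrix.GeneralLinearGroup.map red (Ψ g) = g) {g : G3}
    (hdet : (g : M3).det = 1) (hg : g * g = -1) : ι (Ψ g : MZ).trace = 0 := by
  set X : M2 := (Ψ g : MZ).map ι with hX
  have h1 : X * X = -1 := by
    rw [← iota_lift_neg_one hΨ ι, hX, ← Matrix.map_mul, ← Units.val_mul, ← map_mul, hg]
  have h2 : X.trace = ι (Ψ g : MZ).trace := by
    rw [Matrix.trace_fin_two, Matrix.trace_fin_two, map_add]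
    rfl
  have h3 : X.det = 1 := by
    have : X.det = ι (Ψ g : MZ).det := (RingHom.map_det ι _).symm
    rw [this, det_lift_one hΨ g hdet, map_one]
  have h4 := two_mul_det X
  rw [h1, h3, Matrix.trace_neg, Matrix.trace_one, ← h2] at *
  have h5 : X.trace ^ 2 = 0 := by
    have h6 : (2 : ℂ) * 1 = X.trace ^ 2 - -((Fintype.card (Fin 2) : ℕ) : ℂ) := h4
    simp only [Fintype.card_fin, Nat.cast_ofNat] at h6
    linear_combination -h6
  exact pow_eq_zero_iff (two_ne_zero) |>.mp h5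

/-- squares of the elements of determinant `-1` -/
theorem sq_cases {g : G3} (hdet : (g : M3).det = -1) :
    (g : M3).trace = 0 ∧ g ^ 2 = 1 ∨ ((g ^ 2 : G3) : M3).det = 1 ∧ g ^ 2 * g ^ 2 = -1 := by
  have key : ∀ a b c d : ZMod 3, a * d - b * c = -1 →
      (a + d = 0 ∧ a * a + b * c = 1 ∧ a * b + b * d = 0 ∧ c * a + d * c = 0 ∧
        c * b + d * d = 1) ∨
      ((a * a + b * c) * (a * a + b * c) + (a * b + b * d) * (c * a + d * c) = -1 ∧
      (a * a + b * c) * (a * b + b * d) + (a * b + b * d) * (c * b + d * d) = 0 ∧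
      (c * a + d * c) * (a * a + b * c) + (c * b + d * d) * (c * a + d * c) = 0 ∧
      (c * a + d * c) * (a * b + b * d) + (c * b + d * d) * (c * b + d * d) = -1) := by
    decide
  rw [Matrix.det_fin_two] at hdet
  rcases key _ _ _ _ hdet with ⟨h0, h1, h2, h3, h4⟩ | ⟨h1, h2, h3, h4⟩
  · left
    refine ⟨by rw [Matrix.trace_fin_two]; exact h0, ?_⟩
    apply Units.ext
    rw [sq, Units.val_mul, Units.val_one]
    ext i j
    fin_cases i <;> fin_cases j <;>
      simp only [Fin.zero_eta, Fin.mk_one, Fin.isValue, Matrix.mul_apply, Fin.sum_univ_two]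
    · simpa using h1
    · simpa using h2
    · simpa using h3
    · simpa using h4
  · right
    refine ⟨?_, ?_⟩
    · rw [Units.val_pow_eq_pow_val, Matrix.det_pow, Matrix.det_fin_two, hdet]
      decide
    · apply Units.ext
      rw [sq, Units.val_mul, Units.val_mul, Units.val_neg, Units.val_one]
      ext i j
      fin_cases i <;> fin_cases j <;>
        simp only [Fin.zero_eta, Fin.mk_one, Fin.isValue, Matrix.mul_apply, Fin.sum_univ_two]
      · simpa using h1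
      · simpa using h2
      · simpa using h3
      · simpa using h4

theorem card_G3 : Fintype.card G3 = 48 := by
  rw [Fintype.card_eq_nat_card, Matrix.card_GL_field]
  simp [Fin.prod_univ_two]

/-- involutions of determinant `-1` -/
def inv3 : Finset G3 :=
  open Classical in Finset.univ.filter fun g : G3 => (g : M3).det = -1 ∧ (g : M3).trace = 0

/-- the matrix with given entries -/
def mkG (x : ZMod 3 × ZMod 3 × ZMod 3 × ZMod 3) (h : x.1 * x.2.2.2 - x.2.1 * x.2.2.1 = -1) : G3 :=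
  Matrix.GeneralLinearGroup.mkOfDetNeZero !![x.1, x.2.1; x.2.2.1, x.2.2.2] (by
    rw [Matrix.det_fin_two_of, h]; decide)

def X4 : Finset (ZMod 3 × ZMod 3 × ZMod 3 × ZMod 3) :=
  Finset.univ.filter fun x => x.1 * x.2.2.2 - x.2.1 * x.2.2.1 = -1 ∧ x.1 + x.2.2.2 = 0

set_option maxRecDepth 100000 in
theorem card_X4 : X4.card = 12 := by decide

theorem mem_X4 (x : ZMod 3 × ZMod 3 × ZMod 3 × ZMod 3) : x ∈ X4 ↔
    x.1 * x.2.2.2 - x.2.1 * x.2.2.1 = -1 ∧ x.1 + x.2.2.2 = 0 := by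
  rw [X4, Finset.mem_filter]
  exact and_iff_right (Finset.mem_univ x)

theorem mem_inv3 (g : G3) : g ∈ inv3 ↔ (g : M3).det = -1 ∧ (g : M3).trace = 0 := by
  classical
  simp only [inv3, Finset.mem_filter, Finset.mem_univ, true_and]

attribute [irreducible] inv3

theorem card_inv3 : inv3.card = 12 := by
  rw [← card_X4]
  refine Finset.card_bij' (fun g _ => (((g : M3) 0 0), ((g : M3) 0 1), ((g : M3) 1 0),
    ((g : M3) 1 1))) (fun x hx => mkG x ((mem_X4 x).mp hx).1) ?_ ?_ ?_ ?_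
  · intro g hg
    have h1 := (mem_inv3 g).mp hg
    rw [Matrix.det_fin_two, Matrix.trace_fin_two] at h1
    exact (mem_X4 _).mpr h1
  · intro x hx
    have h1 := (mem_X4 x).mp hx
    rw [mem_inv3]
    change (!![x.1, x.2.1; x.2.2.1, x.2.2.2]).det = -1 ∧ (!![x.1, x.2.1; x.2.2.1, x.2.2.2]).trace = 0
    rw [Matrix.det_fin_two_of, Matrix.trace_fin_two_of]
    exact h1
  · intro g hg
    apply Units.ext
    change !![((g : M3) 0 0), ((g : M3) 0 1); ((g : M3) 1 0), ((g : M3) 1 1)] = (g : M3)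
    exact (Matrix.eta_fin_two _).symm
  · intro x hx
    rfl

section Main

variable {ρ : Γℚ →* G3} {N : ℕ} {lam : 𝓞 K → ℝ}

theorem det_frob (hdet : ∀ σ : Γℚ, Matrix.GeneralLinearGroup.det (ρ σ) = modThreeCyclotomicChar σ)
    {p : ℕ} (hp : p.Prime) (hp3 : ¬ p ∣ 3) {A : ValuationSubring Qb} (hA : A.LiesOverPrime p)
    {φ : Γℚ} (hφ : A.IsFrobeniusAt φ p) : ((ρ φ : G3) : M3).det = (p : ZMod 3) := by
  have h2 := congrArg Units.val (hdet φ)
  have h3 : ((modThreeCyclotomicChar φ : (ZMod 3)ˣ) : ZMod 3) = (p : ZMod 3) :=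
    cyc_frobenius 3 hp hp3 hA hφ
  rw [h3] at h2
  exact h2

theorem mod_of_cast {p : ℕ} {r : ℕ} (hr : r < 3) (h : (p : ZMod 3) = (r : ZMod 3)) : p % 3 = r := by
  have h1 := (ZMod.natCast_eq_natCast_iff p r 3).mp h
  rw [Nat.ModEq, Nat.mod_eq_of_lt hr] at h1
  exact h1

theorem cast_of_mod {p : ℕ} {r : ℕ} (h : p % 3 = r) : (p : ZMod 3) = (r : ZMod 3) := by
  rw [← h, ZMod.natCast_mod]

/-- the primes with Frobenius `±1` -/
def TA (ρ : Γℚ →* G3) (p : ℕ) : Prop := p % 3 = 1 ∧ ∃ A : ValuationSubring Qb,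
  A.LiesOverPrime p ∧ ∃ φ : Γℚ, A.IsFrobeniusAt φ p ∧ (ρ φ = 1 ∨ ρ φ = -1)

/-- the primes whose Frobenius is an involution of determinant `-1` -/
def TD (ρ : Γℚ →* G3) (p : ℕ) : Prop := p % 3 = 2 ∧ ∃ A : ValuationSubring Qb,
  A.LiesOverPrime p ∧ ∃ φ : Γℚ, A.IsFrobeniusAt φ p ∧ ρ φ ∈ inv3

theorem exists_F {G : Type*} [Group G] [TopologicalSpace G] [DiscreteTopology G] (ρ : Γℚ →* G)
    (hρ : Continuous ρ) : ∃ F : IntermediateField ℚ Qb, FiniteDimensional ℚ F ∧
      ∀ σ : Γℚ, (∀ x ∈ F, σ x = x) → ρ σ = 1 := by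
  have ho : IsOpen ((ρ.ker : Subgroup Γℚ) : Set Γℚ) := by
    have : ((ρ.ker : Subgroup Γℚ) : Set Γℚ) = ρ ⁻¹' {1} := by
      ext σ; exact MonoidHom.mem_ker
    rw [this]
    exact (isOpen_discrete _).preimage hρ
  have h1 : ((ρ.ker : Subgroup Γℚ) : Set Γℚ) ∈ nhds (1 : Γℚ) := ho.mem_nhds (one_mem _)
  obtain ⟨F, hF, h2⟩ := (krullTopology_mem_nhds_one_iff ℚ Qb _).mp h1
  exact ⟨F, hF, fun σ hσ => MonoidHom.mem_ker.mp (h2 ((IntermediateField.mem_fixingSubgroup_iff F σ).mpr hσ))⟩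

theorem lamInfo (hρ : Continuous ρ) (hsurj : Function.Surjective ρ)
    (hdet : ∀ σ : Γℚ, Matrix.GeneralLinearGroup.det (ρ σ) = modThreeCyclotomicChar σ)
    (hΨ : ∀ g, Matrix.GeneralLinearGroup.map red (Ψ g) = g) (hN : N ≠ 0)
    (h : LamSpec ρ Ψ ι N lam) : RS.LamInfo N lam (TA ρ) (TD ρ) := by
  have hC0 : ∀ x y : ℝ, (x : ℂ) = (y : ℂ) → x = y := fun x y h => Complex.ofReal_injective h
  have hdet2 : ∀ p : ℕ, p.Prime → p % 3 = 2 → ∀ A : ValuationSubring Qb, A.LiesOverPrime p →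
      ∀ φ : Γℚ, A.IsFrobeniusAt φ p → ((ρ φ : G3) : M3).det = -1 := by
    intro p hp hp2 A hA φ hφ
    have hp3 : ¬ p ∣ 3 := fun h => by
      have := (Nat.prime_dvd_prime_iff_eq hp Nat.prime_three).mp h
      omega
    rw [det_frob hdet hp hp3 hA hφ, cast_of_mod hp2]
    decide
  refine ⟨?_, ?_, ?_, ?_, ?_⟩
  · intro p hp hp2 hpN
    obtain ⟨A, hA⟩ := Fermat.Agent.Frob.exists_liesOverPrime Qb hp
    obtain ⟨φ, hφ⟩ := Fermat.Agent.Frob.exists_isFrobeniusAt A hp hA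
    have h1 := h.inert p hp hp2 hpN A hA φ hφ
    rcases sq_cases (hdet2 p hp hp2 A hA φ hφ) with ⟨-, h2⟩ | ⟨h2, h3⟩
    · rw [h2, tr_one] at h1
      have h3 := hC0 _ 2 (by rw [h1]; norm_num)
      rw [h3]; norm_num
    · rw [tr_ord4 hΨ h2 h3] at h1
      have h4 := hC0 _ 0 (by rw [h1]; norm_num)
      rw [h4]; norm_num
  · intro p hp hT hpN
    obtain ⟨h1, A, hA, φ, hφ, hc⟩ := hT
    refine ⟨h1, ?_⟩
    have hQ : ρ φ ∈ Q8 := by
      rw [mem_Q8]
      rcases hc with hc | hc <;> rw [hc]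
      · simp
      · simp [Matrix.det_fin_two]
    rcases hc with hc | hc
    · refine ⟨2, by norm_num, fun ϖ hϖ hd => ?_⟩
      have h2 := h.split p hp h1 hpN A hA φ hφ hQ ϖ hϖ hd
      rw [hc, tr_one] at h2
      exact hC0 _ 2 (by rw [h2]; norm_num)
    · refine ⟨-2, by norm_num, fun ϖ hϖ hd => ?_⟩
      have h2 := h.split p hp h1 hpN A hA φ hφ hQ ϖ hϖ hd
      rw [hc, tr_neg_one hΨ] at h2
      exact hC0 _ (-2) (by rw [h2]; norm_num)
  · intro p hp hT hpN
    obtain ⟨h1, A, hA, φ, hφ, hc⟩ := hT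
    refine ⟨h1, ?_⟩
    have h2 := h.inert p hp h1 hpN A hA φ hφ
    have h3 := (mem_inv3 _).mp hc
    rcases sq_cases h3.1 with ⟨-, h4⟩ | ⟨h4, h5⟩
    · rw [h4, tr_one] at h2
      exact hC0 _ 2 (by rw [h2]; norm_num)
    · exfalso
      have h6 : ((ρ φ : G3) : M3) * ((ρ φ : G3) : M3) = 1 := by
        have h7 := h3.1
        have h8 := h3.2
        rw [Matrix.det_fin_two] at h7
        rw [Matrix.trace_fin_two] at h8
        have key : ∀ a b c d : ZMod 3, a * d - b * c = -1 → a + d = 0 →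
            (a * a + b * c = 1 ∧ a * b + b * d = 0 ∧ c * a + d * c = 0 ∧ c * b + d * d = 1) := by
          decide
        obtain ⟨k1, k2, k3, k4⟩ := key _ _ _ _ h7 h8
        ext i j
        fin_cases i <;> fin_cases j <;>
          simp only [Fin.zero_eta, Fin.mk_one, Fin.isValue, Matrix.mul_apply, Fin.sum_univ_two]
        · simpa using k1
        · simpa using k2
        · simpa using k3
        · simpa using k4
      have h9 : ρ φ ^ 2 = 1 := by
        apply Units.ext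
        rw [sq, Units.val_mul, h6, Units.val_one]
      rw [h9, mul_one] at h5
      have h10 := congrArg (fun g : G3 => (g : M3) 0 0) h5
      simp at h10
      exact absurd h10 (by decide)
  · intro ε hε
    obtain ⟨C, hC⟩ := ChebFull.chebotarev_lower_places ρ hsurj (exists_F ρ hρ) {1, -1} (TA ρ) 3
      (by norm_num) (fun p hp hp3 A hA _ φ hφ hc => by
        have hc' : ρ φ = 1 ∨ ρ φ = -1 := by simpa using hc
        have hp3' : ¬ p ∣ 3 := hp3
        refine ⟨?_, A, hA, φ, hφ, hc'⟩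
        refine mod_of_cast (by norm_num) ?_
        rw [← det_frob hdet hp hp3' hA hφ]
        rcases hc' with hc' | hc' <;> rw [hc'] <;> simp [Matrix.det_fin_two]) hε
    refine ⟨C, fun s h1 h2 => ?_⟩
    have h3 := hC s h1 h2
    have h4 : (({1, -1} : Finset G3).card : ℝ) / Fintype.card G3 = 1 / 24 := by
      rw [card_G3, Finset.card_pair (by
        intro h5
        have h6 := congrArg (fun g : G3 => (g : M3) 0 0) h5
        simp at h6
        exact absurd h6 (by decide))]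
      norm_num
    rw [h4] at h3
    exact h3
  · intro ε hε
    obtain ⟨C, hC⟩ := ChebFull.chebotarev_lower_places ρ hsurj (exists_F ρ hρ) inv3 (TD ρ) 3
      (by norm_num) (fun p hp hp3 A hA _ φ hφ hc => by
        have hp3' : ¬ p ∣ 3 := hp3
        refine ⟨?_, A, hA, φ, hφ, hc⟩
        refine mod_of_cast (by norm_num) ?_
        rw [← det_frob hdet hp hp3' hA hφ, ((mem_inv3 _).mp hc).1]
        decide) hε
    refine ⟨C, fun s h1 h2 => ?_⟩
    have h3 := hC s h1 h2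
    have h4 : (inv3.card : ℝ) / Fintype.card G3 = 1 / 4 := by
      rw [card_G3, card_inv3]
      norm_num
    rw [h4] at h3
    exact h3

end Main

end Fermat.Agent.LT.Top
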