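import Fermat.Agent.LT.Mp.BadInst
import Fermat.Agent.LT.Ty.FinIdx
import Fermat.Agent.LT.Fou.TwistE
import Fermat.Agent.LT.Tw.Class

/-!
# The interface of the descent
-/

set_option autoImplicit false

noncomputable section

namespace Fermat.Agent.LT.Chain

open NumberField IsDedekindDomain Glob LocFam Fou Mp Ty Loc

section Desc

variable {k E : Type} [Field k] [NumberField k] [Field E] [NumberField E] [Algebra k E]
  [IsTotallyComplex k] [IsTotallyComplex E]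

/-- the local data of the comparison at the bad places -/
structure BadType (σ : E ≃ₐ[k] E) where
  P : Par E
  n1 : ℕ
  n : ℕ
  hδ : P.δ ≤ P.j
  hj : P.j ≠ 0
  hn1 : 3 * P.j + P.δ ≤ n1
  hunr : ∀ v : HeightOneSpectrum (𝓞 k), (P.N : 𝓞 k) ∉ v.asIdeal → IsUnr σ v
  hm : ∀ v : HeightOneSpectrum (𝓞 k), (P.N : 𝓞 k) ∈ v.asIdeal →
    MatchBad σ v P.N n1 n (Par.charOn (L := locE k E) (v := v) hδ hn1).eB

/-- **DESCENT** (helper7, helper27, ...) -/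
def Descent (k E : Type) [Field k] [NumberField k] [Field E] [NumberField E] [Algebra k E]
    [IsTotallyComplex k] [IsTotallyComplex E] (σ : E ≃ₐ[k] E) : Prop :=
  ∀ (_ : Gal3 σ) (_ : Tw.Cyc3 σ) (_ : Module.finrank k E = 3) (T : BadType σ)
    (v0 : HeightOneSpectrum (𝓞 k)) (_ : (T.P.N : 𝓞 k) ∉ v0.asIdeal) (_ : IsSpl σ v0)
    (lam : HeightOneSpectrum (𝓞 E) → ℝ)
    -- the kill place
    (_ : ∀ N' : ℕ, N' ≠ 0 → ∃ (π : 𝓞 k) (v : HeightOneSpectrum (𝓞 k)),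
      v.asIdeal = Ideal.span {π} ∧ (N' : 𝓞 k) ∣ π - 1 ∧ IsSpl σ v ∧
        ∀ w : Fib E v, lam w.1 = -2)
    (_ : ∀ v : HeightOneSpectrum (𝓞 k), (T.P.N : 𝓞 k) ∉ v.asIdeal → ∀ w w' : Fib E v,
      lam w.1 = lam w'.1)
    (_ : ∀ w : Fib E v0, lam w.1 = 0)
    -- the form
    (U : (locE k E).Level)
    (_ : ∀ v : HeightOneSpectrum (𝓞 k), (T.P.N : 𝓞 k) ∉ v.asIdeal → U.U v = PO (OE E v))
    (_ : ∀ v : HeightOneSpectrum (𝓞 k), (T.P.N : 𝓞 k) ∈ v.asIdeal →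
      U.U v = PK (OE E v) (T.P.N ^ T.n1))
    (f : HF E × D U → ℂ) (_ : AutForm f) (_ : ∃ x, f x ≠ 0)
    (_ : ∀ v : HeightOneSpectrum (𝓞 k), (T.P.N : 𝓞 k) ∈ v.asIdeal →
      EqvAt v (T.P.J (locE k E) v) (T.P.psi (locE k E) v) f)
    (_ : ∀ v : HeightOneSpectrum (𝓞 k), (T.P.N : 𝓞 k) ∉ v.asIdeal → ∀ w : Fib E v,
      HeckeAt (HE w) (((√((Ideal.absNorm w.1.asIdeal : ℕ) : ℝ) : ℝ) : ℂ) *
        ((lam w.1 : ℝ) : ℂ)) f),
  ∃ (U' : (locK k).Level) (φ : HF k × D U' → ℂ) (mu : HeightOneSpectrum (𝓞 k) → ℝ),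
    AutForm φ ∧ (∃ x, φ x ≠ 0) ∧
    ∀ v : HeightOneSpectrum (𝓞 k), (T.P.N : 𝓞 k) ∉ v.asIdeal → v ≠ v0 →
      U'.U v = PO ((locK k).O v) ∧
      HeckeAt (HK v) (((√((v.asIdeal.absNorm : ℕ) : ℝ) : ℝ) : ℂ) * ((mu v : ℝ) : ℂ)) φ ∧
      (IsSpl σ v → ∀ w : Fib E v, mu v = lam w.1)

end Desc

end Fermat.Agent.LT.Chain
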