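import Fermat.Agent.LT.Top.ChainD
import Fermat.Agent.LT.Mp.BadInst
import Fermat.Agent.LT.Mp.Hecke
import Fermat.Agent.LT.Ty.FinIdx
import Fermat.Agent.LT.NT.Inst
import Fermat.Agent.LT.NT.LU
import Fermat.Agent.LT.NT.SPl
import Fermat.Agent.LT.T4.Main2
import Fermat.Agent.LT.Fou.TwistE
import Fermat.Agent.LT.Glob.SplitC

/-!
# The interfaces of the chain
-/

set_option autoImplicit false

noncomputable section

namespace Fermat.Agent.LT.Chain

open Matrix FLT.ExplicitLift NumberField WeierstrassCurve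
open Fermat.Agent.LTEnd Fermat.Agent.CFT
open IsDedekindDomain Glob LocFam Fou NT Mp Ty Loc
open scoped MatrixGroups

local notation "Qb" => AlgebraicClosure ℚ
local notation "Γℚ" => (AlgebraicClosure ℚ ≃ₐ[ℚ] AlgebraicClosure ℚ)
local notation "G3" => GL (Fin 2) (ZMod 3)
local notation "MZ" => Matrix (Fin 2) (Fin 2) (ℤ√(-2))

section Desc

variable {k E : Type} [Field k] [NumberField k] [Field E] [NumberField E] [Algebra k E]
  [IsTotallyComplex k] [IsTotallyComplex E]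

/-- **exists_isMatch_bad** (helper4), uniform in the bad places -/
def MatchAll (k E : Type) [Field k] [NumberField k] [Field E] [NumberField E] [Algebra k E]
    [IsTotallyComplex k] [IsTotallyComplex E] (σ : E ≃ₐ[k] E) : Prop :=
  ∀ (N δ : ℕ) (hN : N ≠ 0) (hd : ∀ a : E, IsDual 1 a → IsIntegral ℤ (((N ^ δ : ℕ) : E) * a)),
    ∃ j0 : ℕ, ∀ j, j0 ≤ j → ∀ (hδ : δ ≤ j) (n1 : ℕ) (hn1 : 3 * j + δ ≤ n1), ∃ n : ℕ,
      ∀ v : HeightOneSpectrum (𝓞 k), (N : 𝓞 k) ∈ v.asIdeal →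
        MatchBad σ v N n1 n (Par.charOn (P := ⟨N, j, δ, hN, hd⟩) (L := locE k E) (v := v)
          hδ hn1).eB

end Desc

section T4

variable {E L' : Type} [Field E] [NumberField E] [Field L'] [NumberField L'] [Algebra E L']
  [IsTotallyComplex E]

/-- **t4_main** (helper18) -/
def T4Main (k E L' : Type) [Field k] [NumberField k] [Field E] [NumberField E] [Algebra k E]
  [Field L'] [NumberField L'] [Algebra E L'] [IsTotallyComplex E] (T : T4.T4D E L') : Prop :=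
  ∃ δ0 j0 : ℕ, ∀ P : Par E, P.N = T.N → δ0 ≤ P.δ → j0 ≤ P.j → P.j ≠ 0 →
    T4.ClassOne (locE k E) (T4.plN k T.N) →
    ∀ U : (locE k E).Level, (∀ v ∉ T4.plN k T.N, U.U v = PO (OE E v)) →
      ∀ m, 3 * P.j + P.δ ≤ m → (∀ v ∈ T4.plN k T.N, U.U v ≤ PK (OE E v) (P.N ^ m)) →
      ∃ φ : HF E × D U → ℂ, T4.T4Out T P U φ

end T4

section NT

variable (ρ : Γℚ →* G3) (Ψ : G3 →* GL (Fin 2) (ℤ√(-2))) (ι : ℤ√(-2) →+* ℂ)

/-- **the T4D instance with its dictionary** (helper14) -/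
def T4DInst [NumberField (EF ρ)] [NumberField (LF u0 ρ)] : Prop :=
  ∃ N0 : ℕ, 0 < N0 ∧ ∀ N : ℕ, 0 < N → N0 ∣ N → ∃ T : T4.T4D (EF ρ) (LF u0 ρ), T.N = N ∧
    ∀ (w : HeightOneSpectrum (𝓞 (EF ρ))), ((N : ℕ) : 𝓞 (EF ρ)) ∉ w.asIdeal →
      ∀ π : T4.SI T.N (EF ρ), Prime π → w.valuation (EF ρ) (π : EF ρ) = WithZero.exp (-1 : ℤ) →
        ∀ (A : ValuationSubring Qb) (f : Γℚ), IsFrobV (EF ρ) w A f →
          T.IsLam π (ι (Ψ (ρ f) : MZ).trace)

end NT

end Fermat.Agent.LT.Chain
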