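import Fermat.Agent.LT.Top.ChainP
import Fermat.Agent.LT.NT.T4Inst

set_option autoImplicit false

/-!
# `Chain.T4DInst` from the quartic character
-/

noncomputable section

namespace Fermat.Agent.LT.Chain

open Matrix FLT.ExplicitLift NumberField WeierstrassCurve
open Fermat.Agent.LTEnd Fermat.Agent.CFT
open IsDedekindDomain NT
open scoped MatrixGroups

local notation "Qb" => AlgebraicClosure ℚ
local notation "Γℚ" => (AlgebraicClosure ℚ ≃ₐ[ℚ] AlgebraicClosure ℚ)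
local notation "G3" => GL (Fin 2) (ZMod 3)
local notation "MZ" => Matrix (Fin 2) (Fin 2) (ℤ√(-2))

/-- **T4DInst from the output of PSI.** -/
theorem t4dInst {ρ : Γℚ →* G3} (Ψ : G3 →* GL (Fin 2) (ℤ√(-2))) (ι : ℤ√(-2) →+* ℂ)
    [NumberField (EF ρ)] [NumberField (LF u0 ρ)] (P : PsiOut ρ u0) (hρ : Continuous ρ)
    (hs : Function.Surjective ρ) (hΨ : ∀ g, Matrix.GeneralLinearGroup.map red (Ψ g) = g) :
    T4DInst ρ Ψ ι := by
  obtain ⟨N0, h0, h⟩ := NT.t4dInst_of_psiOut (ι := ι) P hρ hs hΨ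
  refine ⟨N0, h0, fun N hN hd => ?_⟩
  obtain ⟨T, h1, -, -, h2⟩ := h N hN hd
  exact ⟨T, h1, h2⟩

end Fermat.Agent.LT.Chain
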