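import Fermat.Agent.LT.Top.LamK
import Fermat.Agent.LT.NT.Inst
import Fermat.Agent.LT.Glob.SplitC
import Fermat.Agent.LT.Glob.FibSplit
import Fermat.Agent.LT.Mp.Inst

/-!
# The eigenvalues at the places of `EF ρ` and of `kF ρ`
-/

set_option autoImplicit false
set_option linter.unusedSectionVars false

noncomputable section

namespace Fermat.Agent.LT.Top

open Matrix FLT.ExplicitLift NumberField WeierstrassCurve IsDedekindDomain
open Fermat.Agent.LTEnd Fermat.Agent.LT.NT Fermat.Agent.LT.Glob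
open scoped MatrixGroups

local notation "Qb" => AlgebraicClosure ℚ
local notation "Γℚ" => (AlgebraicClosure ℚ ≃ₐ[ℚ] AlgebraicClosure ℚ)
local notation "G3" => GL (Fin 2) (ZMod 3)
local notation "MZ" => Matrix (Fin 2) (Fin 2) (ℤ√(-2))

section Tr

variable {Ψ : G3 →* GL (Fin 2) (ℤ√(-2))} {ι : ℤ√(-2) →+* ℂ}

/-- traces of the elements of `Q₈` -/
theorem tr_Q8 (hΨ : ∀ g, Matrix.GeneralLinearGroup.map red (Ψ g) = g) {g : G3} (hg : g ∈ Q8) :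
    ι (Ψ g : MZ).trace = 2 ∨ ι (Ψ g : MZ).trace = -2 ∨ ι (Ψ g : MZ).trace = 0 := by
  by_cases h1 : g = 1
  · left; rw [h1]; exact tr_one
  · by_cases h2 : g = -1
    · right; left; rw [h2]; exact tr_neg_one hΨ
    · right; right
      exact tr_ord4 hΨ ((mem_Q8 g).1 hg).1 (by rw [← pow_two]; exact sq_eq_neg_one hg h1 h2)

/-- traces of the elements of `Q₈` are real -/
theorem tr_Q8_re (hΨ : ∀ g, Matrix.GeneralLinearGroup.map red (Ψ g) = g) {g : G3} (hg : g ∈ Q8) :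
    (((ι (Ψ g : MZ).trace).re : ℝ) : ℂ) = ι (Ψ g : MZ).trace := by
  rcases tr_Q8 (ι := ι) hΨ hg with h | h | h <;> rw [h] <;> simp

end Tr

section lamP

variable (ρ : Γℚ →* G3) (Ψ : G3 →* GL (Fin 2) (ℤ√(-2))) (ι : ℤ√(-2) →+* ℂ)
variable {F : Type*} [Field F] [NumberField F] [Algebra F Qb]

/-- **The eigenvalue** at a place of a number field `F ⊆ Qb`: the trace of Frobenius -/
def lamP (v : HeightOneSpectrum (𝓞 F)) : ℝ := lamV ρ (fun g => (ι (Ψ g : MZ).trace).re) v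

variable {ρ Ψ ι}

theorem lamP_re {v : HeightOneSpectrum (𝓞 F)} (hun : UnrAt ρ (resChar v))
    {A : ValuationSubring Qb} {φ : Γℚ} (h : IsFrobV F v A φ) :
    lamP ρ Ψ ι v = (ι (Ψ (ρ φ) : MZ).trace).re := by
  unfold lamP
  rw [lamV_eq _ (fun g h => by rw [tr_conj]) hun h]

theorem lamP_eq (hΨ : ∀ g, Matrix.GeneralLinearGroup.map red (Ψ g) = g)
    {v : HeightOneSpectrum (𝓞 F)} (hun : UnrAt ρ (resChar v))
    {A : ValuationSubring Qb} {φ : Γℚ} (h : IsFrobV F v A φ) (hQ : ρ φ ∈ Q8) :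
    ((lamP ρ Ψ ι v : ℝ) : ℂ) = ι (Ψ (ρ φ) : MZ).trace := by
  rw [lamP_re hun h, tr_Q8_re hΨ hQ]

/-- places prime to the level are unramified -/
theorem unr_of_notMem {N0 : ℕ} (h0 : ∀ p : ℕ, p.Prime → ¬ p ∣ N0 → UnrAt ρ p) {N : ℕ}
    (hN : N0 ∣ N) {v : HeightOneSpectrum (𝓞 F)} (hv : (N : 𝓞 F) ∉ v.asIdeal) :
    UnrAt ρ (resChar v) :=
  h0 _ (resChar_prime v) fun h => hv ((natCast_mem_iff v N).2 (h.trans hN))

end lamP

section KE

variable {ρ : Γℚ →* G3} {Ψ : G3 →* GL (Fin 2) (ℤ√(-2))} {ι : ℤ√(-2) →+* ℂ}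
variable [NumberField (kF ρ)] [NumberField (EF ρ)]

/-- Frobenius elements of `EF ρ` are mapped to `Q₈` -/
theorem frobE_mem (hρ : Continuous ρ) {w : HeightOneSpectrum (𝓞 (EF ρ))}
    {A : ValuationSubring Qb} {φ : Γℚ} (h : IsFrobV (EF ρ) w A φ) : ρ φ ∈ Q8 :=
  (mem_GF_fixF hρ).1 h.fix

/-- Frobenius elements of `kF ρ` are mapped to `SL₂` -/
theorem frobK_mem (hρ : Continuous ρ) {v : HeightOneSpectrum (𝓞 (kF ρ))}
    {A : ValuationSubring Qb} {φ : Γℚ} (h : IsFrobV (kF ρ) v A φ) : ρ φ ∈ SL3 :=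
  (mem_GF_fixF hρ).1 h.fix

/-- **the eigenvalues at the places of `EF ρ`** -/
theorem lamE_eq (hρ : Continuous ρ) (hΨ : ∀ g, Matrix.GeneralLinearGroup.map red (Ψ g) = g)
    {w : HeightOneSpectrum (𝓞 (EF ρ))} (hun : UnrAt ρ (resChar w)) {A : ValuationSubring Qb}
    {φ : Γℚ} (h : IsFrobV (EF ρ) w A φ) :
    ((lamP ρ Ψ ι w : ℝ) : ℂ) = ι (Ψ (ρ φ) : MZ).trace :=
  lamP_eq hΨ hun h (frobE_mem hρ h)

/-- a place of `EF ρ` above `v` has the same residue characteristic -/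
theorem unr_fib {v : HeightOneSpectrum (𝓞 (kF ρ))} (hun : UnrAt ρ (resChar v))
    (w : Fib (EF ρ) v) : UnrAt ρ (resChar w.1) := by
  rw [resChar_fib w.2]; exact hun

/-- **split places: the eigenvalues are those of `kF ρ`** -/
theorem lamE_split (hρ : Continuous ρ) (hΨ : ∀ g, Matrix.GeneralLinearGroup.map red (Ψ g) = g)
    {v : HeightOneSpectrum (𝓞 (kF ρ))} (hun : UnrAt ρ (resChar v)) {A : ValuationSubring Qb}
    {φ : Γℚ} (h : IsFrobV (kF ρ) v A φ) (hφ : ρ φ ∈ Q8) (w : Fib (EF ρ) v) :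
    Ideal.absNorm w.1.asIdeal = Ideal.absNorm v.asIdeal ∧
      ((lamP ρ Ψ ι w.1 : ℝ) : ℂ) = ι (Ψ (ρ φ) : MZ).trace := by
  obtain ⟨h1, h2⟩ := split_fib hρ hun h hφ w.2
  refine ⟨h1, ?_⟩
  obtain ⟨A', hA'⟩ := exists_place w.1
  obtain ⟨ψ, hψ⟩ := exists_isFrobV hA'
  obtain ⟨τ, -, hτ⟩ := h2 A' ψ hψ
  rw [lamE_eq hρ hΨ (unr_fib hun w) hψ, hτ, tr_conj]

/-- the eigenvalues at the places above `v` are equal -/
theorem lamE_fib (hρ : Continuous ρ) (hs : Function.Surjective ρ)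
    (hΨ : ∀ g, Matrix.GeneralLinearGroup.map red (Ψ g) = g)
    {v : HeightOneSpectrum (𝓞 (kF ρ))} (hun : UnrAt ρ (resChar v)) (w w' : Fib (EF ρ) v) :
    lamP ρ Ψ ι w.1 = lamP ρ Ψ ι w'.1 := by
  obtain ⟨A, hA⟩ := exists_place v
  obtain ⟨φ, hφ⟩ := exists_isFrobV hA
  by_cases hQ : ρ φ ∈ Q8
  · have h1 := (lamE_split (ι := ι) hρ hΨ hun hφ hQ w).2
    have h2 := (lamE_split (ι := ι) hρ hΨ hun hφ hQ w').2
    exact_mod_cast h1.trans h2.symm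
  · have := isGalois_KE hρ
    have h1 := card_fib_of_notMem (F := kF ρ) (F' := EF ρ) (H := Q8) (hGE hρ)
      (by rw [finrank_KE hρ hs]; exact Nat.prime_three) hun hφ hQ
    have h2 : Subsingleton (Fib (EF ρ) v) := (Nat.card_eq_one_iff_unique.1 h1).1
    rw [Subsingleton.elim w w']

/-- **splitting criterion** -/
theorem isSpl_iff (hρ : Continuous ρ) (hs : Function.Surjective ρ)
    {σ : EF ρ ≃ₐ[kF ρ] EF ρ} (hσ : Loc.Gal3 σ)
    {v : HeightOneSpectrum (𝓞 (kF ρ))} (hun : UnrAt ρ (resChar v)) {A : ValuationSubring Qb}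
    {φ : Γℚ} (h : IsFrobV (kF ρ) v A φ) : Mp.IsSpl σ v ↔ ρ φ ∈ Q8 := by
  have := isGalois_KE hρ
  constructor
  · rintro ⟨e, he⟩
    by_contra hQ
    have h1 := card_fib_of_notMem (F := kF ρ) (F' := EF ρ) (H := Q8) (hGE hρ)
      (by rw [finrank_KE hρ hs]; exact Nat.prime_three) hun h hQ
    have h2 := Nat.card_congr (he.fib hσ)
    rw [Nat.card_fin] at h2
    have h3 : Nat.card (Fib (EF ρ) v) = 1 := h1
    omega
  · intro hQ
    have h1 := card_fib_of_mem (F := kF ρ) (F' := EF ρ) (H := Q8) (hGE hρ) hun h hQ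
    rw [finrank_KE hρ hs] at h1
    exact exists_isSplitIdem_of_card' hσ h1

theorem isSpl_of_splitFrob {σ : EF ρ ≃ₐ[kF ρ] EF ρ} (hσ : Loc.Gal3 σ) {P : G3 → Prop}
    {v : HeightOneSpectrum (𝓞 (kF ρ))} (h : SplitFrob ρ (EF ρ) P v) : Mp.IsSpl σ v :=
  exists_isSplitIdem_of_card' hσ h.card

/-- **the killing primes**: the eigenvalue is `-2` -/
theorem exists_kill_lam (hρ : Continuous ρ) (hs : Function.Surjective ρ) (hd : DetCyc ρ)
    (hΨ : ∀ g, Matrix.GeneralLinearGroup.map red (Ψ g) = g)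
    {σ : EF ρ ≃ₐ[kF ρ] EF ρ} (hσ : Loc.Gal3 σ) {N : ℕ} (hN : N ≠ 0) (B : ℕ) :
    ∃ (π : 𝓞 (kF ρ)) (v : HeightOneSpectrum (𝓞 (kF ρ))), v.asIdeal = Ideal.span {π} ∧
      (N : 𝓞 (kF ρ)) ∣ π - 1 ∧ B < resChar v ∧ Mp.IsSpl σ v ∧
      ∀ w : Fib (EF ρ) v, lamP ρ Ψ ι w.1 = -2 := by
  obtain ⟨π, v, h1, h2, h3, h4⟩ := exists_kill_KE hρ hs hd N (Nat.pos_of_ne_zero hN) B
  refine ⟨π, v, h1, h2, h3, isSpl_of_splitFrob hσ h4, fun w => ?_⟩
  obtain ⟨A, hA⟩ := exists_place w.1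
  obtain ⟨φ, hφ⟩ := exists_isFrobV hA
  have h5 : ρ φ = -1 := h4.frobE w.1 w.2 A φ hφ
  have h6 := lamE_eq (ι := ι) hρ hΨ (unr_fib h4.unr w) hφ
  rw [h5, tr_neg_one hΨ] at h6
  exact_mod_cast h6

/-- **the auxiliary place `v₀`**: the eigenvalue is `0` -/
theorem exists_v0_lam (hρ : Continuous ρ) (hs : Function.Surjective ρ) (hd : DetCyc ρ)
    (hΨ : ∀ g, Matrix.GeneralLinearGroup.map red (Ψ g) = g)
    {σ : EF ρ ≃ₐ[kF ρ] EF ρ} (hσ : Loc.Gal3 σ) (B : ℕ) :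
    ∃ v : HeightOneSpectrum (𝓞 (kF ρ)), B < resChar v ∧ Mp.IsSpl σ v ∧
      ∀ w : Fib (EF ρ) v, lamP ρ Ψ ι w.1 = 0 := by
  obtain ⟨v, h3, h4⟩ := exists_v0_KE hρ hs hd B
  refine ⟨v, h3, isSpl_of_splitFrob hσ h4, fun w => ?_⟩
  obtain ⟨A, hA⟩ := exists_place w.1
  obtain ⟨φ, hφ⟩ := exists_isFrobV hA
  obtain ⟨h5, h5'⟩ := h4.frobE w.1 w.2 A φ hφ
  have h6 := lamE_eq (ι := ι) hρ hΨ (unr_fib h4.unr w) hφ
  rw [tr_ord4 hΨ ((mem_Q8 _).1 h5).1 h5'] at h6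
  exact_mod_cast h6

/-- places of large residue characteristic do not divide `N` -/
theorem notMem_of_lt {F : Type*} [Field F] [NumberField F] [Algebra F Qb]
    {v : HeightOneSpectrum (𝓞 F)}
    {N : ℕ} (hN : N ≠ 0) (h : N < resChar v) : (N : 𝓞 F) ∉ v.asIdeal := by
  rw [natCast_mem_iff]
  intro hd
  exact absurd (Nat.le_of_dvd (Nat.pos_of_ne_zero hN) hd) (by omega)

/-- **The eigenvalues on the `k`-side are the traces of Frobenius at the split places.** -/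
theorem mu_eq (hρ : Continuous ρ) (hs : Function.Surjective ρ)
    (hΨ : ∀ g, Matrix.GeneralLinearGroup.map red (Ψ g) = g)
    {σ : EF ρ ≃ₐ[kF ρ] EF ρ} (hσ : Loc.Gal3 σ) {v : HeightOneSpectrum (𝓞 (kF ρ))}
    (hun : UnrAt ρ (resChar v)) {m : ℝ}
    (hm : Mp.IsSpl σ v → ∀ w : Fib (EF ρ) v, m = lamP ρ Ψ ι w.1)
    {A : ValuationSubring Qb} {φ : Γℚ} (h : IsFrobV (kF ρ) v A φ) (hφ : ρ φ ∈ Q8) :
    ((m : ℝ) : ℂ) = ι (Ψ (ρ φ) : MZ).trace := by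
  have := isGalois_KE hρ
  have h1 := card_fib_of_mem (F := kF ρ) (F' := EF ρ) (H := Q8) (hGE hρ) hun h hφ
  rw [finrank_KE hρ hs] at h1
  have h2 : Nonempty (Fib (EF ρ) v) := by
    have : Nat.card (Fib (EF ρ) v) ≠ 0 := by
      have h3 : Nat.card (Fib (EF ρ) v) = 3 := h1
      omega
    exact (Nat.card_ne_zero.1 this).1
  obtain ⟨w⟩ := h2
  rw [hm ((isSpl_iff hρ hs hσ hun h).2 hφ) w]
  exact (lamE_split hρ hΨ hun h hφ w).2

end KE

end Fermat.Agent.LT.Top
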