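import Fermat.Agent.LT.Top.Lam
import Fermat.Agent.LT.NT.CM

/-!
# The last step: from the weight one form of T6 to S47
-/

set_option autoImplicit false

noncomputable section

namespace Fermat.Agent.LT.Top

open Matrix FLT.ExplicitLift NumberField WeierstrassCurve EisensteinWeightOne CongruenceSubgroup
open ModularFormClass Fermat.Agent.LTEnd Fermat.Agent.Neb Fermat.Agent.DS Fermat.Agent.IntStr
open scoped MatrixGroups

local notation "Qb" => AlgebraicClosure ℚ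
local notation "Γℚ" => (AlgebraicClosure ℚ ≃ₐ[ℚ] AlgebraicClosure ℚ)
local notation "G3" => GL (Fin 2) (ZMod 3)
local notation "MZ" => Matrix (Fin 2) (Fin 2) (ℤ√(-2))

section Prime

variable {K : Type*} [Field K] [NumberField K] [IsCyclotomicExtension {3} ℚ K]

theorem wK_sq : RS.wK K * RS.wK K + RS.wK K + 1 = 0 := by
  have h := (IsCyclotomicExtension.zeta_spec 3 ℚ K).toInteger_isPrimitiveRoot
  have h1 := h.isRoot_cyclotomic (by norm_num)
  rw [Polynomial.cyclotomic_three] at h1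
  have h2 : (RS.wK K) ^ 2 + RS.wK K + 1 = 0 := by
    rw [Polynomial.IsRoot.def, Polynomial.eval_add, Polynomial.eval_add, Polynomial.eval_pow,
      Polynomial.eval_X, Polynomial.eval_one] at h1
    exact h1
  rw [← h2]; ring

theorem fac (x y : ℤ) : (x + y * RS.wK K : 𝓞 K) * (x - y - y * RS.wK K) =
    ((x ^ 2 - x * y + y ^ 2 : ℤ) : 𝓞 K) := by
  push_cast
  linear_combination (-(y : 𝓞 K) ^ 2) * wK_sq (K := K)

theorem dvd_of_norm {x y : ℤ} {ℓ : ℕ} (h : x ^ 2 - x * y + y ^ 2 = ℓ) :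
    (x + y * RS.wK K : 𝓞 K) ∣ (ℓ : 𝓞 K) := by
  refine ⟨x - y - y * RS.wK K, ?_⟩
  rw [fac, h]; push_cast; rfl

theorem norm_eq (x y : ℤ) : Algebra.norm ℚ ((x + y * RS.wK K : 𝓞 K) : K) =
    ((x ^ 2 - x * y + y ^ 2 : ℤ) : ℚ) := by
  classical
  have : IsGalois ℚ K := IsCyclotomicExtension.isGalois {3} ℚ K
  have hfr : Module.finrank ℚ K = 2 := by
    rw [IsCyclotomicExtension.finrank (n := 3) K
      (Polynomial.cyclotomic.irreducible_rat (by norm_num))]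
    decide
  have hcard : Fintype.card Gal(K/ℚ) = 2 := by
    rw [← Nat.card_eq_fintype_card, IsGalois.card_aut_eq_finrank, hfr]
  set z : K := ((RS.wK K : 𝓞 K) : K) with hz
  have hzz : z * z + z + 1 = 0 := by
    have := congrArg (algebraMap (𝓞 K) K) (wK_sq (K := K))
    simpa using this
  -- values of automorphisms
  have hval : ∀ s : Gal(K/ℚ), s z = z ∨ s z = -1 - z := by
    intro s
    have h1 : s z * s z + s z + 1 = 0 := by
      have := congrArg s hzz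
      simpa using this
    have h2 : (s z - z) * (s z - (-1 - z)) = 0 := by linear_combination h1 - hzz
    rcases mul_eq_zero.mp h2 with h | h
    · exact Or.inl (sub_eq_zero.mp h)
    · exact Or.inr (sub_eq_zero.mp h)
  have hinj : ∀ s t : Gal(K/ℚ), s z = t z → s = t := by
    intro s t hst
    have hζ := IsCyclotomicExtension.zeta_spec 3 ℚ K
    have h3 : z = IsCyclotomicExtension.zeta 3 ℚ K := rfl
    have hpb := (hζ.powerBasis ℚ)
    apply AlgEquiv.coe_toAlgHom_injective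
    refine (hζ.powerBasis ℚ).algHom_ext ?_
    rw [IsPrimitiveRoot.powerBasis_gen]
    exact hst
  obtain ⟨c, hc⟩ : ∃ c : Gal(K/ℚ), c ≠ 1 := by
    have h4 : 1 < Fintype.card Gal(K/ℚ) := by rw [hcard]; norm_num
    have : Nontrivial Gal(K/ℚ) := Fintype.one_lt_card_iff_nontrivial.mp h4
    exact exists_ne 1
  have hcz : c z = -1 - z := by
    rcases hval c with h | h
    · exact absurd (hinj c 1 h) hc
    · exact h
  have huniv : (Finset.univ : Finset Gal(K/ℚ)) = {1, c} := by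
    symm
    apply Finset.eq_univ_of_card
    rw [Finset.card_pair (Ne.symm hc), hcard]
  have h5 := Algebra.norm_eq_prod_automorphisms ℚ ((x + y * RS.wK K : 𝓞 K) : K)
  rw [huniv, Finset.prod_pair (Ne.symm hc)] at h5
  apply (algebraMap ℚ K).injective
  rw [h5]
  have e : ((x + y * RS.wK K : 𝓞 K) : K) = x + y * z := by
    rw [hz]; push_cast; simp
  rw [e]
  have e2 : c ((x : K) + y * z) = x + y * (-1 - z) := by
    rw [map_add, map_mul, hcz, map_intCast, map_intCast]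
  rw [e2]
  change ((x : K) + y * z) * _ = _
  push_cast
  simp only [map_add, map_sub, map_mul, map_pow, map_intCast]
  linear_combination (-(y : K) ^ 2) * hzz

theorem prime_of_norm {x y : ℤ} {ℓ : ℕ} (hℓ : ℓ.Prime) (h : x ^ 2 - x * y + y ^ 2 = ℓ) :
    Prime (x + y * RS.wK K : 𝓞 K) := by
  set π : 𝓞 K := x + y * RS.wK K with hπ
  have h1 : Algebra.norm ℤ π = ℓ := by
    have h2 : ((Algebra.norm ℤ π : ℤ) : ℚ) = ((ℓ : ℤ) : ℚ) := by
      rw [Algebra.coe_norm_int, hπ, norm_eq, h]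
    exact_mod_cast h2
  have h3 : Ideal.absNorm (Ideal.span {π}) = ℓ := by
    rw [Ideal.absNorm_span_singleton, h1, Int.natAbs_natCast]
  have h4 : (Ideal.span {π}).IsPrime :=
    Ideal.isPrime_of_irreducible_absNorm (by rw [h3]; exact hℓ)
  refine (Ideal.span_singleton_prime ?_).mp h4
  rintro h0
  rw [h0, Algebra.norm_zero] at h1
  exact hℓ.ne_zero (by exact_mod_cast h1.symm)

theorem mod_three {x y : ℤ} {ℓ : ℕ} (hℓ : ℓ.Prime) (h3 : ℓ ≠ 3)
    (h : x ^ 2 - x * y + y ^ 2 = ℓ) : ℓ % 3 = 1 := by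
  have h0 : (x ^ 2 - x * y + y ^ 2) % 3 = 0 ∨ (x ^ 2 - x * y + y ^ 2) % 3 = 1 := by
    have hx : x % 3 = 0 ∨ x % 3 = 1 ∨ x % 3 = 2 := by omega
    have hy : y % 3 = 0 ∨ y % 3 = 1 ∨ y % 3 = 2 := by omega
    have e : (x ^ 2 - x * y + y ^ 2) % 3 = ((x % 3) ^ 2 - (x % 3) * (y % 3) + (y % 3) ^ 2) % 3 := by
      simp [Int.sub_emod, Int.add_emod, Int.mul_emod, pow_two]
    rw [e]
    rcases hx with hx | hx | hx <;> rcases hy with hy | hy | hy <;> rw [hx, hy] <;> norm_num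
  have h1 : ((x ^ 2 - x * y + y ^ 2) % 3 : ℤ) = ((ℓ % 3 : ℕ) : ℤ) := by rw [h]; norm_num
  have h2 : ℓ % 3 ≠ 0 := fun h2 => h3
    ((Nat.prime_dvd_prime_iff_eq Nat.prime_three hℓ).mp (Nat.dvd_of_mod_eq_zero h2)).symm
  omega

end Prime

section Final

variable {K : Type*} [Field K] [NumberField K] [IsCyclotomicExtension {3} ℚ K]

/-- **S47 from the output of T6.** -/
theorem s47_of_form (ρ : Γℚ →* G3) (hρ : Continuous ρ) (hsurj : Function.Surjective ρ)
    (hdet : ∀ σ : Γℚ, Matrix.GeneralLinearGroup.det (ρ σ) = modThreeCyclotomicChar σ)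
    (Ψ : G3 →* GL (Fin 2) (ℤ√(-2)))
    (hΨ : ∀ g, Matrix.GeneralLinearGroup.map red (Ψ g) = g)
    (ι : ℤ√(-2) →+* ℂ) {N : ℕ} (hN : N ≠ 0) {lam : 𝓞 K → ℝ} (hlam : LamSpec ρ Ψ ι N lam)
    {M : ℕ} [NeZero M] (f : CuspForm (Gamma1 M) 1) (hf : f ≠ 0) (N' B : ℕ) (hN' : 0 < N')
    (hT : ∀ ℓ : ℕ, ℓ.Prime → B < ℓ → (ℓ : ZMod M) = 1 → ∀ x y : ℤ, x ^ 2 - x * y + y ^ 2 = ℓ →
      (N' : ℤ) ∣ x - 1 → (N' : ℤ) ∣ y → ∀ n : ℕ,
      qCoeff f (ℓ * n) + (if ℓ ∣ n then qCoeff f (n / ℓ) else 0) =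
        ((lam (x + y * RS.wK K) : ℝ) : ℂ) * qCoeff f n) :
    ∃ (N : ℕ) (_ : NeZero N) (b : ℕ → ℤ√(-2)),
      FormalHecke.IsEigensystem
        (fun ℓ => if ℓ ∣ N then 0 else ((chiNegThree ℓ : ℤ) : ℤ√(-2))) b ∧
      CuspForm.IsWeightOneChiNegThreeRealized N b ∧
      ∀ p : ℕ, p.Prime → ¬ p ∣ 3 * N →
        ∀ A : ValuationSubring (AlgebraicClosure ℚ), A.LiesOverPrime p →
          ∀ σ : Γℚ, A.IsFrobeniusAt σ p →
            b p = ((Ψ (ρ σ) : GL (Fin 2) (ℤ√(-2))) : Matrix (Fin 2) (Fin 2) (ℤ√(-2))).trace := by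
  refine s47_of_norm (fun N hN => NT.exists_cm_level N hN) ρ hρ hsurj hdet Ψ hΨ ι f hf N'
    (max (max B N) 3) hN' ?_
  intro ℓ hℓ hB h1 x y hxy hx hy A hA φ hφ hQ n
  have hB1 : B < ℓ := lt_of_le_of_lt ((le_max_left _ _).trans (le_max_left _ _)) hB
  have hB2 : N < ℓ := lt_of_le_of_lt ((le_max_right _ _).trans (le_max_left _ _)) hB
  have hB3 : 3 < ℓ := lt_of_le_of_lt (le_max_right _ _) hB
  have hℓN : ¬ ℓ ∣ N := fun h => absurd (Nat.le_of_dvd (Nat.pos_of_ne_zero hN) h) (by omega)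
  rw [hT ℓ hℓ hB1 h1 x y hxy hx hy n]
  congr 1
  exact hlam.split ℓ hℓ (mod_three hℓ (by omega) hxy) hℓN A hA φ hφ hQ _ (prime_of_norm hℓ hxy)
    (dvd_of_norm hxy)

end Final

end Fermat.Agent.LT.Top
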