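import Fermat.Agent.LT.Top.Final
import Fermat.Agent.LT.NT.FrobV
import Fermat.Agent.LT.RS.Eis

/-!
# `LamSpec` from the eigenvalues at the places of `K`
-/

set_option autoImplicit false

noncomputable section

namespace Fermat.Agent.LT.Top

open Matrix FLT.ExplicitLift NumberField WeierstrassCurve IsDedekindDomain
open Fermat.Agent.LTEnd Fermat.Agent.Neb Fermat.Agent.LT.NT
open scoped MatrixGroups Pointwise

local notation "Qb" => AlgebraicClosure ℚ
local notation "Γℚ" => (AlgebraicClosure ℚ ≃ₐ[ℚ] AlgebraicClosure ℚ)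
local notation "G3" => GL (Fin 2) (ZMod 3)
local notation "M3" => Matrix (Fin 2) (Fin 2) (ZMod 3)
local notation "MZ" => Matrix (Fin 2) (Fin 2) (ℤ√(-2))

variable {K : Type*} [Field K] [NumberField K] [IsCyclotomicExtension {3} ℚ K] [Algebra K Qb]
variable {ρ : Γℚ →* G3} {Ψ : G3 →* GL (Fin 2) (ℤ√(-2))} {ι : ℤ√(-2) →+* ℂ} {N : ℕ}

theorem tr_conj (g h : G3) : (Ψ (h * g * h⁻¹) : MZ).trace = (Ψ g : MZ).trace := by
  rw [map_mul, map_mul, Units.val_mul, Matrix.trace_mul_comm, ← Units.val_mul, ← mul_assoc,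
    ← map_mul, inv_mul_cancel, map_one, one_mul]

theorem mem_GF_of_char {σ : Γℚ} (hσ : modThreeCyclotomicChar σ = 1) : σ ∈ GF K := by
  have hζ := IsCyclotomicExtension.zeta_spec 3 ℚ K
  have h1 : σ (algebraMap K Qb (IsCyclotomicExtension.zeta 3 ℚ K)) =
      algebraMap K Qb (IsCyclotomicExtension.zeta 3 ℚ K) := by
    refine fix_w_of_char hσ ?_
    rw [← map_pow, hζ.pow_eq_one, map_one]
  have h2 : (σ : Qb →ₐ[ℚ] Qb).comp ((Algebra.ofId K Qb).restrictScalars ℚ) =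
      (Algebra.ofId K Qb).restrictScalars ℚ := by
    refine (hζ.powerBasis ℚ).algHom_ext ?_
    rw [IsPrimitiveRoot.powerBasis_gen]
    exact h1
  intro x
  exact DFunLike.congr_fun h2 x

theorem q8c_sq : ∀ a b c d : ZMod 3, a * d - b * c = -1 →
    Q8c (a * a + b * c) (a * b + b * d) (c * a + d * c) (c * b + d * d) := by
  decide

theorem sq_mem_Q8 {g : G3} (hdet : (g : M3).det = -1) : g ^ 2 ∈ Q8 := by
  rw [Matrix.det_fin_two] at hdet
  have h := q8c_sq _ _ _ _ hdet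
  change Q8c (((g ^ 2 : G3) : M3) 0 0) (((g ^ 2 : G3) : M3) 0 1) (((g ^ 2 : G3) : M3) 1 0)
    (((g ^ 2 : G3) : M3) 1 1)
  rw [sq, Units.val_mul]
  simpa only [Matrix.mul_apply, Fin.sum_univ_two] using h

theorem char_one_of_Q8
    (hdet : ∀ σ : Γℚ, Matrix.GeneralLinearGroup.det (ρ σ) = modThreeCyclotomicChar σ) {σ : Γℚ}
    (h : ρ σ ∈ Q8) : modThreeCyclotomicChar σ = 1 := by
  rw [← hdet]
  apply Units.ext
  exact ((mem_Q8 _).mp h).1

/-- **`LamSpec` from the eigenvalues at the places of `K`.** -/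
theorem lamSpec_of_places
    (hdet : ∀ σ : Γℚ, Matrix.GeneralLinearGroup.det (ρ σ) = modThreeCyclotomicChar σ)
    (lam : 𝓞 K → ℝ)
    (h : ∀ v : HeightOneSpectrum (𝓞 K), ¬ resChar v ∣ N → ∀ (A : ValuationSubring Qb) (φ : Γℚ),
      IsFrobV K v A φ → ρ φ ∈ Q8 → ∀ ϖ : 𝓞 K, v.asIdeal = Ideal.span {ϖ} →
      ((lam ϖ : ℝ) : ℂ) = ι (Ψ (ρ φ) : MZ).trace) : LamSpec ρ Ψ ι N lam := by
  constructor
  · intro p hp hp1 hpN A hA φ hφ hQ ϖ hϖ hd
    let v : HeightOneSpectrum (𝓞 K) := ⟨Ideal.span {ϖ}, (Ideal.span_singleton_prime hϖ.ne_zero).mpr hϖ,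
      by rw [Ne, Ideal.span_singleton_eq_bot]; exact hϖ.ne_zero⟩
    have hpv : (p : 𝓞 K) ∈ v.asIdeal := Ideal.mem_span_singleton.mpr hd
    have hrc : resChar v = p := resChar_eq hp hpv
    obtain ⟨A', hA'⟩ := exists_place v
    have hA'p : A'.LiesOverPrime p := hrc ▸ liesOverPrime_of_below hA'
    obtain ⟨τ, rfl⟩ := Fermat.Agent.Frob.exists_smul_eq hp hA hA'p
    have hφ' := isFrobeniusAt_conj hφ τ
    have hρ : ρ (τ * φ * τ⁻¹) = ρ τ * ρ φ * (ρ τ)⁻¹ := by rw [map_mul, map_mul, map_inv]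
    have hQ' : ρ (τ * φ * τ⁻¹) ∈ Q8 := by rw [hρ]; exact q8_normal.conj_mem _ hQ _
    have hfix : τ * φ * τ⁻¹ ∈ GF K := mem_GF_of_char (char_one_of_Q8 hdet hQ')
    have hle := absNorm_le_of_fix hp.one_lt hφ' hfix hA'
    have hnorm : Ideal.absNorm v.asIdeal = p := by
      obtain ⟨f, hf, h1⟩ := exists_absNorm_eq v
      rw [hrc] at h1
      refine le_antisymm hle ?_
      rw [h1]
      exact Nat.le_self_pow hf.ne' p
    have hF : IsFrobV K v (τ • A) (τ * φ * τ⁻¹) := ⟨hfix, hA', by rw [hnorm]; exact hφ'⟩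
    rw [h v (by rwa [hrc]) _ _ hF hQ' ϖ rfl, hρ, tr_conj]
  · intro p hp hp2 hpN A hA φ hφ
    have hpr : Prime (p : 𝓞 K) := RS.prime_of_mod2 hp hp2
    let v : HeightOneSpectrum (𝓞 K) := ⟨Ideal.span {(p : 𝓞 K)},
      (Ideal.span_singleton_prime hpr.ne_zero).mpr hpr,
      by rw [Ne, Ideal.span_singleton_eq_bot]; exact hpr.ne_zero⟩
    have hpv : (p : 𝓞 K) ∈ v.asIdeal := Ideal.mem_span_singleton_self _
    have hrc : resChar v = p := resChar_eq hp hpv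
    obtain ⟨A', hA'⟩ := exists_place v
    have hA'p : A'.LiesOverPrime p := hrc ▸ liesOverPrime_of_below hA'
    obtain ⟨τ, rfl⟩ := Fermat.Agent.Frob.exists_smul_eq hp hA hA'p
    have hφ' := isFrobeniusAt_pow (isFrobeniusAt_conj hφ τ) 2
    have hρ : ρ ((τ * φ * τ⁻¹) ^ 2) = ρ τ * (ρ φ ^ 2) * (ρ τ)⁻¹ := by
      rw [map_pow, map_mul, map_mul, map_inv, conj_pow]
    have hp3 : ¬ p ∣ 3 := fun h => by
      have := (Nat.prime_dvd_prime_iff_eq hp Nat.prime_three).mp h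
      omega
    have hd : ((ρ φ : G3) : M3).det = -1 := by
      rw [det_frob hdet hp hp3 hA hφ, cast_of_mod hp2]
      decide
    have hQ' : ρ ((τ * φ * τ⁻¹) ^ 2) ∈ Q8 := by
      rw [hρ]; exact q8_normal.conj_mem _ (sq_mem_Q8 hd) _
    have hfix : (τ * φ * τ⁻¹) ^ 2 ∈ GF K := mem_GF_of_char (char_one_of_Q8 hdet hQ')
    have hfr : Module.finrank ℚ K = 2 := by
      rw [IsCyclotomicExtension.finrank (n := 3) K
        (Polynomial.cyclotomic.irreducible_rat (by norm_num))]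
      decide
    have hnorm : Ideal.absNorm v.asIdeal = p ^ 2 := by
      change Ideal.absNorm (Ideal.span {(p : 𝓞 K)}) = _
      rw [Ideal.absNorm_span_singleton, show ((p : 𝓞 K)) = algebraMap ℤ (𝓞 K) (p : ℤ) by simp,
        Algebra.norm_algebraMap, RingOfIntegers.rank, hfr]
      simp [Int.natAbs_pow]
    have hF : IsFrobV K v (τ • A) ((τ * φ * τ⁻¹) ^ 2) := ⟨hfix, hA', by rw [hnorm]; exact hφ'⟩
    rw [h v (by rwa [hrc]) _ _ hF hQ' p rfl, hρ, tr_conj]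

end Fermat.Agent.LT.Top
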