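import Fermat.Agent.LT.Top.MainS
import Fermat.Agent.LT.Glob.SplitC
import Fermat.Agent.LT.Mp.Inst
import Fermat.Agent.LT.NT.Inst

/-!
# From the output of the descent (eigenvalues given by the places of `E`) to S47
-/

set_option autoImplicit false

noncomputable section

namespace Fermat.Agent.LT.Top

open Matrix FLT.ExplicitLift NumberField WeierstrassCurve EisensteinWeightOne CongruenceSubgroup
open Fermat.Agent.LTEnd Fermat.Agent.Neb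
open IsDedekindDomain Glob Fou NT
open scoped MatrixGroups

local notation "Qb" => AlgebraicClosure ℚ
local notation "Γℚ" => (AlgebraicClosure ℚ ≃ₐ[ℚ] AlgebraicClosure ℚ)
local notation "G3" => GL (Fin 2) (ZMod 3)
local notation "MZ" => Matrix (Fin 2) (Fin 2) (ℤ√(-2))

variable {ρ : Γℚ →* G3} [NumberField (kF ρ)] [NumberField (EF ρ)]

/-- places of `kF ρ` whose Frobenius element lies in `Q₈` are split in `EF ρ`, and `φ` is also a
Frobenius element of a place above -/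
theorem exists_above (hρ : Continuous ρ) (hs : Function.Surjective ρ)
    {v : HeightOneSpectrum (𝓞 (kF ρ))} (hun : UnrAt ρ (resChar v)) {A : ValuationSubring Qb}
    {φ : Γℚ} (h : IsFrobV (kF ρ) v A φ) (hφ : ρ φ ∈ Q8) :
    Nat.card (Fib (EF ρ) v) = 3 ∧ ∃ w : Fib (EF ρ) v, IsFrobV (EF ρ) w.1 A φ := by
  have := isGalois_KE hρ
  constructor
  · have := card_fib_of_mem (F := kF ρ) (F' := EF ρ) (H := Q8) (hGE hρ) hun h hφ
    rwa [finrank_KE hρ hs] at this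
  · let w : HeightOneSpectrum (𝓞 (EF ρ)) :=
      belowV (EF ρ) A (resChar_prime v) (liesOverPrime_of_below h.below)
    have hw : Frob.below (𝓞 (EF ρ)) A = w.asIdeal := rfl
    have hl : w.asIdeal.LiesOver v.asIdeal := liesOver_of_below h.below hw
    have hN : Ideal.absNorm w.asIdeal = Ideal.absNorm v.asIdeal :=
      (absNorm_eq_iff (hGE hρ) hun h hw).mpr hφ
    refine ⟨⟨w, hl⟩, (mem_GF_fixF hρ).mpr hφ, hw, ?_⟩
    show A.IsFrobeniusAt φ (Ideal.absNorm w.asIdeal)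
    rw [hN]
    exact h.frob

theorem natCast_notMem_fib {k E : Type*} [Field k] [NumberField k] [Field E] [NumberField E]
    [Algebra k E] {v : HeightOneSpectrum (𝓞 k)} {N : ℕ} (h : (N : 𝓞 k) ∉ v.asIdeal)
    (w : Fib E v) : (N : 𝓞 E) ∉ w.1.asIdeal := by
  intro h1
  apply h
  have h2 : v.asIdeal = w.1.asIdeal.under (𝓞 k) := w.2.over
  rw [h2, Ideal.under, Ideal.mem_comap, map_natCast]
  exact h1

/-- **The output of the descent gives the input of the classical passage.** -/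
theorem descK_of_out [IsTotallyComplex (kF ρ)] (hρ : Continuous ρ)
    (hs : Function.Surjective ρ) {Ψ : G3 →* GL (Fin 2) (ℤ√(-2))} {ι : ℤ√(-2) →+* ℂ}
    {σ : EF ρ ≃ₐ[kF ρ] EF ρ} (hσ : Loc.Gal3 σ) {N : ℕ} (hN : N ≠ 0)
    (hun : ∀ v : HeightOneSpectrum (𝓞 (kF ρ)), (N : 𝓞 (kF ρ)) ∉ v.asIdeal →
      UnrAt ρ (resChar v)) (v0 : HeightOneSpectrum (𝓞 (kF ρ)))
    {lam : HeightOneSpectrum (𝓞 (EF ρ)) → ℝ}
    (hlam : ∀ w : HeightOneSpectrum (𝓞 (EF ρ)), (N : 𝓞 (EF ρ)) ∉ w.asIdeal →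
      ∀ (A : ValuationSubring Qb) (f : Γℚ), IsFrobV (EF ρ) w A f → ρ f ∈ Q8 →
        ((lam w : ℝ) : ℂ) = ι (Ψ (ρ f) : MZ).trace)
    {U : (locK (kF ρ)).Level} {φ : HF (kF ρ) × LocFam.D U → ℂ}
    {mu : HeightOneSpectrum (𝓞 (kF ρ)) → ℝ} (haut : AutForm φ) (hne : ∃ x, φ x ≠ 0)
    (hout : ∀ v : HeightOneSpectrum (𝓞 (kF ρ)), (N : 𝓞 (kF ρ)) ∉ v.asIdeal → v ≠ v0 →
      U.U v = PO ((locK (kF ρ)).O v) ∧
      HeckeAt (HK v) (((√((v.asIdeal.absNorm : ℕ) : ℝ) : ℝ) : ℂ) * ((mu v : ℝ) : ℂ)) φ ∧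
      (Mp.IsSpl σ v → ∀ w : Fib (EF ρ) v, mu v = lam w.1)) :
    DescK (kF ρ) ρ Ψ ι U ({v | (N : 𝓞 (kF ρ)) ∈ v.asIdeal} ∪ {v0}) mu φ where
  aut := haut
  ne := hne
  fin := (Cls.finite_bad hN).union (Set.finite_singleton v0)
  lev v hv := (hout v (fun h => hv (Or.inl h)) fun h => hv (Or.inr h)).1
  hecke v hv := (hout v (fun h => hv (Or.inl h)) fun h => hv (Or.inr h)).2.1
  frob v hv A f hf hQ := by
    have hNv : (N : 𝓞 (kF ρ)) ∉ v.asIdeal := fun h => hv (Or.inl h)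
    obtain ⟨hcard, w, hw⟩ := exists_above hρ hs (hun v hNv) hf hQ
    have hspl : Mp.IsSpl σ v := exists_isSplitIdem_of_card' hσ hcard
    rw [(hout v hNv fun h => hv (Or.inr h)).2.2 hspl w]
    exact hlam w.1 (natCast_notMem_fib hNv w) A f hw hQ

/-- **S47 from the output of the descent.** -/
theorem s47_of_out [IsTotallyComplex (kF ρ)] (hρ : Continuous ρ)
    (hs : Function.Surjective ρ)
    (hdet : ∀ σ : Γℚ, Matrix.GeneralLinearGroup.det (ρ σ) = modThreeCyclotomicChar σ)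
    (Ψ : G3 →* GL (Fin 2) (ℤ√(-2)))
    (hΨ : ∀ g, Matrix.GeneralLinearGroup.map red (Ψ g) = g) (ι : ℤ√(-2) →+* ℂ)
    {σ : EF ρ ≃ₐ[kF ρ] EF ρ} (hσ : Loc.Gal3 σ) {N : ℕ} (hN : N ≠ 0)
    (hun : ∀ v : HeightOneSpectrum (𝓞 (kF ρ)), (N : 𝓞 (kF ρ)) ∉ v.asIdeal →
      UnrAt ρ (resChar v)) (v0 : HeightOneSpectrum (𝓞 (kF ρ)))
    {lam : HeightOneSpectrum (𝓞 (EF ρ)) → ℝ}
    (hlam : ∀ w : HeightOneSpectrum (𝓞 (EF ρ)), (N : 𝓞 (EF ρ)) ∉ w.asIdeal →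
      ∀ (A : ValuationSubring Qb) (f : Γℚ), IsFrobV (EF ρ) w A f → ρ f ∈ Q8 →
        ((lam w : ℝ) : ℂ) = ι (Ψ (ρ f) : MZ).trace)
    {U : (locK (kF ρ)).Level} {φ : HF (kF ρ) × LocFam.D U → ℂ}
    {mu : HeightOneSpectrum (𝓞 (kF ρ)) → ℝ} (haut : AutForm φ) (hne : ∃ x, φ x ≠ 0)
    (hout : ∀ v : HeightOneSpectrum (𝓞 (kF ρ)), (N : 𝓞 (kF ρ)) ∉ v.asIdeal → v ≠ v0 →
      U.U v = PO ((locK (kF ρ)).O v) ∧
      HeckeAt (HK v) (((√((v.asIdeal.absNorm : ℕ) : ℝ) : ℝ) : ℂ) * ((mu v : ℝ) : ℂ)) φ ∧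
      (Mp.IsSpl σ v → ∀ w : Fib (EF ρ) v, mu v = lam w.1)) :
    ∃ (N : ℕ) (_ : NeZero N) (b : ℕ → ℤ√(-2)),
      FormalHecke.IsEigensystem
        (fun ℓ => if ℓ ∣ N then 0 else ((chiNegThree ℓ : ℤ) : ℤ√(-2))) b ∧
      CuspForm.IsWeightOneChiNegThreeRealized N b ∧
      ∀ p : ℕ, p.Prime → ¬ p ∣ 3 * N →
        ∀ A : ValuationSubring (AlgebraicClosure ℚ), A.LiesOverPrime p →
          ∀ σ : Γℚ, A.IsFrobeniusAt σ p →
            b p = ((Ψ (ρ σ) : GL (Fin 2) (ℤ√(-2))) : Matrix (Fin 2) (Fin 2) (ℤ√(-2))).trace := by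
  have hd : DetCyc ρ := hdet
  have := hd.isCyclotomic_kF hρ hs
  exact s47_of_descK ρ hρ hs hdet Ψ hΨ ι
    (descK_of_out hρ hs hσ hN hun v0 hlam haut hne hout)

end Fermat.Agent.LT.Top
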