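import Fermat.Agent.LT.Top.Pre
import Fermat.Agent.LT.Top.Post
import Fermat.Agent.LT.NT.T4Inst

/-!
# S47 from the quartic character and the descent
-/

set_option autoImplicit false

noncomputable section

namespace Fermat.Agent.LT.Chain

open Matrix FLT.ExplicitLift NumberField WeierstrassCurve EisensteinWeightOne
open Fermat.Agent.LTEnd Fermat.Agent.CFT
open IsDedekindDomain Glob LocFam Fou NT Mp Ty Loc Top
open scoped MatrixGroups

local notation "Qb" => AlgebraicClosure ℚ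
local notation "Γℚ" => (AlgebraicClosure ℚ ≃ₐ[ℚ] AlgebraicClosure ℚ)
local notation "G3" => GL (Fin 2) (ZMod 3)
local notation "MZ" => Matrix (Fin 2) (Fin 2) (ℤ√(-2))

/-- an embedding `ℤ√(-2) → ℂ` -/
def iotaC : ℤ√(-2) →+* ℂ := Zsqrtd.lift ⟨Complex.I * ((√(2 : ℝ) : ℝ) : ℂ), by
  have h : (((√(2 : ℝ) : ℝ) : ℂ)) * ((√(2 : ℝ) : ℝ) : ℂ) = 2 := by
    rw [← Complex.ofReal_mul, Real.mul_self_sqrt (by norm_num)]
    norm_num
  have h2 := Complex.I_mul_I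
  push_cast
  linear_combination (((√(2 : ℝ) : ℝ) : ℂ) * ((√(2 : ℝ) : ℝ) : ℂ)) * h2 - h⟩

theorem t4DInst_of {ρ : Γℚ →* G3} {Ψ : G3 →* GL (Fin 2) (ℤ√(-2))} {ι : ℤ√(-2) →+* ℂ}
    [NumberField (EF ρ)] [NumberField (LF u0 ρ)] (hρ : Continuous ρ)
    (hs : Function.Surjective ρ) (hΨ : ∀ g, Matrix.GeneralLinearGroup.map red (Ψ g) = g)
    (P : PsiOut ρ u0) : T4DInst ρ Ψ ι := by
  obtain ⟨N0, h0, h⟩ := t4dInst_of_psiOut (ι := ι) P hρ hs hΨ
  refine ⟨N0, h0, fun N hN hd => ?_⟩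
  obtain ⟨T, h1, -, -, h2⟩ := h N hN hd
  exact ⟨T, h1, h2⟩

/-- **S47 from the quartic character and the descent.** -/
theorem s47_of (ρ : Γℚ →* G3) (hρ : Continuous ρ) (hs : Function.Surjective ρ)
    (hdet : ∀ σ : Γℚ, Matrix.GeneralLinearGroup.det (ρ σ) = modThreeCyclotomicChar σ)
    (Ψ : G3 →* GL (Fin 2) (ℤ√(-2)))
    (hΨ : ∀ g, Matrix.GeneralLinearGroup.map red (Ψ g) = g)
    (hP : ∀ [NumberField (EF ρ)] [NumberField (LF u0 ρ)], Nonempty (PsiOut ρ u0))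
    (hD : ∀ {k E : Type} [Field k] [NumberField k] [Field E] [NumberField E] [Algebra k E]
      [IsTotallyComplex k] [IsTotallyComplex E] {σ : E ≃ₐ[k] E} {ζ : k}
      (_ : IsPrimitiveRoot ζ 3), Descent k E σ) :
    ∃ (N : ℕ) (_ : NeZero N) (b : ℕ → ℤ√(-2)),
      FormalHecke.IsEigensystem
        (fun ℓ => if ℓ ∣ N then 0 else ((chiNegThree ℓ : ℤ) : ℤ√(-2))) b ∧
      CuspForm.IsWeightOneChiNegThreeRealized N b ∧
      ∀ p : ℕ, p.Prime → ¬ p ∣ 3 * N →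
        ∀ A : ValuationSubring (AlgebraicClosure ℚ), A.LiesOverPrime p →
          ∀ σ : Γℚ, A.IsFrobeniusAt σ p →
            b p = ((Ψ (ρ σ) : GL (Fin 2) (ℤ√(-2))) : Matrix (Fin 2) (Fin 2) (ℤ√(-2))).trace := by
  have hd : DetCyc ρ := hdet
  have : NumberField (kF ρ) := numberField_fixF hρ SL3
  have : NumberField (EF ρ) := numberField_fixF hρ Q8
  have : NumberField (LF u0 ρ) := numberField_fixF hρ _
  have : IsTotallyComplex (kF ρ) := hd.isTotallyComplex_kF hρ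
  have : IsTotallyComplex (EF ρ) := hd.isTotallyComplex hρ q8_le
  obtain ⟨P⟩ := hP
  obtain ⟨τ, hτ, hτ'⟩ := exists_gen hs
  obtain ⟨ζ, hζ⟩ := hd.exists_zeta
  have h3 := gal3_sigE hρ hs hτ hτ'
  obtain ⟨N, v0, U', φ, mu, hN, hunr, ha, hx, hout⟩ := pre (ι := iotaC) hρ hs hd hΨ
    (t4DInst_of hρ hs hΨ P) h3 (cyc3_sigE hρ hs hτ hτ') (hD hζ)
  exact s47_of_out hρ hs hdet Ψ hΨ iotaC h3 hN
    (fun v hv => hunr _ (resChar_prime v) fun h => hv ((natCast_mem_iff v N).mpr h)) v0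
    (fun w hw A f hf _ => lamE_coe hρ hΨ
      (hunr _ (resChar_prime w) fun h => hw ((natCast_mem_iff w N).mpr h)) hf) ha hx hout

end Fermat.Agent.LT.Chain
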