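import Fermat.Agent.LT.Top.PackOut
import Fermat.Agent.LT.Glob.FullK
import Fermat.Agent.LT.NT.KE

/-!
# S47 from the output of the descent over `kF ρ`
-/

set_option autoImplicit false

noncomputable section

namespace Fermat.Agent.LT.Top

open Matrix FLT.ExplicitLift NumberField WeierstrassCurve EisensteinWeightOne CongruenceSubgroup
open ModularFormClass Fermat.Agent.LTEnd Fermat.Agent.Neb Fermat.Agent.DS Fermat.Agent.IntStr
open IsDedekindDomain Glob Fou NT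
open scoped MatrixGroups

local notation "Qb" => AlgebraicClosure ℚ
local notation "Γℚ" => (AlgebraicClosure ℚ ≃ₐ[ℚ] AlgebraicClosure ℚ)
local notation "G3" => GL (Fin 2) (ZMod 3)
local notation "MZ" => Matrix (Fin 2) (Fin 2) (ℤ√(-2))

/-- **Output of the descent**: an automorphic form over `K` with the Hecke eigenvalues of `ρ` at the
places where the Frobenius element lies in `Q₈`. -/
structure DescK (K : Type*) [Field K] [NumberField K] [IsTotallyComplex K] [Algebra K Qb]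
    (ρ : Γℚ →* G3) (Ψ : G3 →* GL (Fin 2) (ℤ√(-2))) (ι : ℤ√(-2) →+* ℂ)
    (U : (locK K).Level) (B : Set (HeightOneSpectrum (𝓞 K)))
    (mu : HeightOneSpectrum (𝓞 K) → ℝ) (f : HF K × LocFam.D U → ℂ) : Prop where
  aut : AutForm f
  ne : ∃ x, f x ≠ 0
  fin : B.Finite
  lev : ∀ v ∉ B, U.U v = PO ((locK K).O v)
  hecke : ∀ v ∉ B, HeckeAt (HK v)
    (((√((v.asIdeal.absNorm : ℕ) : ℝ) : ℝ) : ℂ) * ((mu v : ℝ) : ℂ)) f
  frob : ∀ v ∉ B, ∀ (A : ValuationSubring Qb) (φ : Γℚ), IsFrobV K v A φ → ρ φ ∈ Q8 →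
    ((mu v : ℝ) : ℂ) = ι (Ψ (ρ φ) : MZ).trace

/-- a natural number divisible by all places of a finite set -/
theorem exists_nat_of_finite {K : Type*} [Field K] [NumberField K] [Algebra K Qb]
    {B : Set (HeightOneSpectrum (𝓞 K))} (h : B.Finite) :
    ∃ N : ℕ, N ≠ 0 ∧ ∀ v, (N : 𝓞 K) ∉ v.asIdeal → v ∉ B := by
  classical
  refine ⟨∏ v ∈ h.toFinset, resChar v, Finset.prod_ne_zero_iff.mpr fun v _ =>
    (resChar_prime v).ne_zero, fun v hv hB => hv ?_⟩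
  rw [natCast_mem_iff]
  exact Finset.dvd_prod_of_mem _ (h.mem_toFinset.mpr hB)

theorem s47_of_descK {K : Type*} [Field K] [NumberField K] [IsCyclotomicExtension {3} ℚ K]
    [Algebra K Qb] [IsTotallyComplex K]
    (ρ : Γℚ →* G3) (hρ : Continuous ρ) (hsurj : Function.Surjective ρ)
    (hdet : ∀ σ : Γℚ, Matrix.GeneralLinearGroup.det (ρ σ) = modThreeCyclotomicChar σ)
    (Ψ : G3 →* GL (Fin 2) (ℤ√(-2)))
    (hΨ : ∀ g, Matrix.GeneralLinearGroup.map red (Ψ g) = g)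
    (ι : ℤ√(-2) →+* ℂ) {U : (locK K).Level} {B : Set (HeightOneSpectrum (𝓞 K))}
    {mu : HeightOneSpectrum (𝓞 K) → ℝ} {f : HF K × LocFam.D U → ℂ}
    (h : DescK K ρ Ψ ι U B mu f) :
    ∃ (N : ℕ) (_ : NeZero N) (b : ℕ → ℤ√(-2)),
      FormalHecke.IsEigensystem
        (fun ℓ => if ℓ ∣ N then 0 else ((chiNegThree ℓ : ℤ) : ℤ√(-2))) b ∧
      CuspForm.IsWeightOneChiNegThreeRealized N b ∧
      ∀ p : ℕ, p.Prime → ¬ p ∣ 3 * N →
        ∀ A : ValuationSubring (AlgebraicClosure ℚ), A.LiesOverPrime p →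
          ∀ σ : Γℚ, A.IsFrobeniusAt σ p →
            b p = ((Ψ (ρ σ) : GL (Fin 2) (ℤ√(-2))) : Matrix (Fin 2) (Fin 2) (ℤ√(-2))).trace := by
  obtain ⟨N0, hN0, hB⟩ := exists_nat_of_finite h.fin
  obtain ⟨w⟩ : Nonempty (InfinitePlace K) := inferInstance
  exact s47_of_autForm ρ hρ hsurj hdet Ψ hΨ ι w h.aut h.ne hN0 mu
    (fun v hv => h.lev v (hB v hv))
    (fun v hv => ⟨HK v, full_HK v, h.hecke v (hB v hv)⟩)
    (fun v hv => h.frob v (hB v hv))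

/-- the descent for `ρ`, over `kF ρ` -/
def Descent (ρ : Γℚ →* G3) (Ψ : G3 →* GL (Fin 2) (ℤ√(-2))) : Prop :=
  ∀ (_ : NumberField (kF ρ)) (_ : IsTotallyComplex (kF ρ)),
    ∃ (ι : ℤ√(-2) →+* ℂ) (U : (locK (kF ρ)).Level) (B : Set (HeightOneSpectrum (𝓞 (kF ρ))))
      (mu : HeightOneSpectrum (𝓞 (kF ρ)) → ℝ) (f : HF (kF ρ) × LocFam.D U → ℂ),
      DescK (kF ρ) ρ Ψ ι U B mu f

/-- **S47 from the descent.** -/
theorem s47_of_descent (ρ : Γℚ →* G3) (hρ : Continuous ρ) (hsurj : Function.Surjective ρ)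
    (hdet : ∀ σ : Γℚ, Matrix.GeneralLinearGroup.det (ρ σ) = modThreeCyclotomicChar σ)
    (Ψ : G3 →* GL (Fin 2) (ℤ√(-2)))
    (hΨ : ∀ g, Matrix.GeneralLinearGroup.map red (Ψ g) = g) (hD : Descent ρ Ψ) :
    ∃ (N : ℕ) (_ : NeZero N) (b : ℕ → ℤ√(-2)),
      FormalHecke.IsEigensystem
        (fun ℓ => if ℓ ∣ N then 0 else ((chiNegThree ℓ : ℤ) : ℤ√(-2))) b ∧
      CuspForm.IsWeightOneChiNegThreeRealized N b ∧
      ∀ p : ℕ, p.Prime → ¬ p ∣ 3 * N →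
        ∀ A : ValuationSubring (AlgebraicClosure ℚ), A.LiesOverPrime p →
          ∀ σ : Γℚ, A.IsFrobeniusAt σ p →
            b p = ((Ψ (ρ σ) : GL (Fin 2) (ℤ√(-2))) : Matrix (Fin 2) (Fin 2) (ℤ√(-2))).trace := by
  have hd : DetCyc ρ := hdet
  have i1 : NumberField (kF ρ) := numberField_fixF hρ SL3
  have i2 : IsTotallyComplex (kF ρ) := hd.isTotallyComplex_kF hρ
  have i3 : IsCyclotomicExtension {3} ℚ (kF ρ) := hd.isCyclotomic_kF hρ hsurj
  obtain ⟨ι, U, B, mu, f, h⟩ := hD i1 i2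
  exact s47_of_descK ρ hρ hsurj hdet Ψ hΨ ι h

end Fermat.Agent.LT.Top
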