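import Fermat.Agent.LT.Top.LamK
import Fermat.Agent.LT.RS.Main
import Fermat.Agent.LT.Cls.Out2
import Fermat.Agent.LT.Th.Final

/-!
# From the classical package (output of FOU.3) to S47
-/

set_option autoImplicit false

noncomputable section

namespace Fermat.Agent.LT.Top

open Matrix FLT.ExplicitLift NumberField WeierstrassCurve EisensteinWeightOne CongruenceSubgroup
open ModularFormClass Fermat.Agent.LTEnd Fermat.Agent.Neb Fermat.Agent.DS Fermat.Agent.IntStr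
open scoped MatrixGroups

local notation "Qb" => AlgebraicClosure ℚ
local notation "Γℚ" => (AlgebraicClosure ℚ ≃ₐ[ℚ] AlgebraicClosure ℚ)
local notation "G3" => GL (Fin 2) (ZMod 3)
local notation "MZ" => Matrix (Fin 2) (Fin 2) (ℤ√(-2))

variable {K : Type*} [Field K] [NumberField K] [IsCyclotomicExtension {3} ℚ K]

/-- the two forms of the Hecke relation -/
theorem heckeFun_of_hFun (w : InfinitePlace K) {N : ℕ} {φ : H3 → ℂ} {lam : 𝓞 K → ℝ}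
    (h : Cls.HFun w.embedding N φ lam) : Th.HeckeFun w.embedding N φ lam := by
  intro ϖ h0 l hp hl hn hcong z y hy
  refine h ϖ l hp (fun hd => ?_) hcong hl ?_ z y hy _ _
  · have h1 : ϖ ∣ 1 := by
      have h2 := dvd_sub dvd_rfl (hd.trans hcong)
      rwa [sub_sub_cancel] at h2
    exact hp.not_isUnit (isUnit_of_dvd_one h1)
  · have h1 := Cls.norm3 w ϖ
    rw [hn] at h1
    exact_mod_cast h1

/-- **The classical package**: a cuspidal eigenform on hyperbolic 3-space attached to `ρ`. -/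
structure Pack (ρ : Γℚ →* G3) (Ψ : G3 →* GL (Fin 2) (ℤ√(-2))) (ι : ℤ√(-2) →+* ℂ)
    (w : InfinitePlace K) (N : ℕ) (φ : H3 → ℂ) (a : K → ℂ) (κ : 𝓞 K → ℂ) (lam : 𝓞 K → ℝ)
    (B : ℝ → ℝ) : Prop where
  form : RS.KForm w.embedding N φ a κ lam B
  bes : RS.Bes B
  ne : φ ≠ 0
  cont : Continuous φ
  mean : Th.Harm.Mean φ
  hecke : Cls.HFun w.embedding N φ lam
  spec : LamSpec ρ Ψ ι N lam

/-- **S47 from the classical package.** -/
theorem s47_of_pack (ρ : Γℚ →* G3) (hρ : Continuous ρ)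
    (hsurj : Function.Surjective ρ)
    (hdet : ∀ σ : Γℚ, Matrix.GeneralLinearGroup.det (ρ σ) = modThreeCyclotomicChar σ)
    (Ψ : G3 →* GL (Fin 2) (ℤ√(-2)))
    (hΨ : ∀ g, Matrix.GeneralLinearGroup.map red (Ψ g) = g)
    (ι : ℤ√(-2) →+* ℂ) {w : InfinitePlace K} {N : ℕ} {φ : H3 → ℂ} {a : K → ℂ}
    {κ : 𝓞 K → ℂ} {lam : 𝓞 K → ℝ} {B : ℝ → ℝ} (P : Pack ρ Ψ ι w N φ a κ lam B) :
    ∃ (N : ℕ) (_ : NeZero N) (b : ℕ → ℤ√(-2)),
      FormalHecke.IsEigensystem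
        (fun ℓ => if ℓ ∣ N then 0 else ((chiNegThree ℓ : ℤ) : ℤ√(-2))) b ∧
      CuspForm.IsWeightOneChiNegThreeRealized N b ∧
      ∀ p : ℕ, p.Prime → ¬ p ∣ 3 * N →
        ∀ A : ValuationSubring (AlgebraicClosure ℚ), A.LiesOverPrime p →
          ∀ σ : Γℚ, A.IsFrobeniusAt σ p →
            b p = ((Ψ (ρ σ) : GL (Fin 2) (ℤ√(-2))) : Matrix (Fin 2) (Fin 2) (ℤ√(-2))).trace := by
  have hN : N ≠ 0 := P.form.pos.ne'
  have L : RS.LamInfo N lam (TA ρ) (TD ρ) := lamInfo hρ hsurj hdet hΨ hN P.spec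
  have hper : RS.HasPeriod w.embedding φ := RS.hasPeriod P.form P.bes P.ne L
  obtain ⟨M, hM, f, N', B', hf, hN', hT⟩ :=
    Th.t6_main P.form P.cont P.mean hper (heckeFun_of_hFun w P.hecke)
  exact s47_of_form ρ hρ hsurj hdet Ψ hΨ ι hN P.spec f hf N' B' hN' hT

open IsDedekindDomain Glob Glob.LocFam Fou in
/-- **S47 from the automorphic form on `H³ × D` over `K = ℚ(√-3)`.** -/
theorem s47_of_autForm [Algebra K Qb] [IsTotallyComplex K]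
    (ρ : Γℚ →* G3) (hρ : Continuous ρ) (hsurj : Function.Surjective ρ)
    (hdet : ∀ σ : Γℚ, Matrix.GeneralLinearGroup.det (ρ σ) = modThreeCyclotomicChar σ)
    (Ψ : G3 →* GL (Fin 2) (ℤ√(-2)))
    (hΨ : ∀ g, Matrix.GeneralLinearGroup.map red (Ψ g) = g)
    (ι : ℤ√(-2) →+* ℂ) (w : InfinitePlace K) {U : (locK K).Level} {f0 : HF K × D U → ℂ}
    (hf0 : Fou.AutForm f0) (hne : ∃ x, f0 x ≠ 0) {N0 : ℕ} (hN0 : N0 ≠ 0)
    (mu : HeightOneSpectrum (𝓞 K) → ℝ)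
    (hlev : ∀ v : HeightOneSpectrum (𝓞 K), (N0 : 𝓞 K) ∉ v.asIdeal →
      U.U v = PO ((locK K).O v))
    (hHk : ∀ v : HeightOneSpectrum (𝓞 K), (N0 : 𝓞 K) ∉ v.asIdeal →
      ∃ H : HData (locK K) v, Cls.Full H ∧
        HeckeAt H (((√((v.asIdeal.absNorm : ℕ) : ℝ) : ℝ) : ℂ) * ((mu v : ℝ) : ℂ)) f0)
    (hmu : ∀ v : HeightOneSpectrum (𝓞 K), (N0 : 𝓞 K) ∉ v.asIdeal →
      ∀ (A : ValuationSubring Qb) (φ : Γℚ), NT.IsFrobV K v A φ → ρ φ ∈ Q8 →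
      ((mu v : ℝ) : ℂ) = ι (Ψ (ρ φ) : MZ).trace) :
    ∃ (N : ℕ) (_ : NeZero N) (b : ℕ → ℤ√(-2)),
      FormalHecke.IsEigensystem
        (fun ℓ => if ℓ ∣ N then 0 else ((chiNegThree ℓ : ℤ) : ℤ√(-2))) b ∧
      CuspForm.IsWeightOneChiNegThreeRealized N b ∧
      ∀ p : ℕ, p.Prime → ¬ p ∣ 3 * N →
        ∀ A : ValuationSubring (AlgebraicClosure ℚ), A.LiesOverPrime p →
          ∀ σ : Γℚ, A.IsFrobeniusAt σ p →
            b p = ((Ψ (ρ σ) : GL (Fin 2) (ℤ√(-2))) : Matrix (Fin 2) (Fin 2) (ℤ√(-2))).trace := by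
  obtain ⟨N, φ, a, κ, hdvd, h3, hN, hK, hB, hne, hc, hm, hH⟩ :=
    Cls.fou3_places w hf0 hne hN0 mu hlev hHk
  refine s47_of_pack ρ hρ hsurj hdet Ψ hΨ ι (w := w) (N := N) (φ := φ) (a := a)
    (κ := κ) ⟨hK, hB, hne, hc, hm, hH, ?_⟩
  refine lamSpec_of_places hdet _ fun v hv A φ hφ hQ ϖ hϖ => ?_
  rw [Cls.lamOf_eq mu hϖ]
  refine hmu v (fun h => hv ?_) A φ hφ hQ
  -- `resChar v ∣ N0 ∣ N`
  refine dvd_trans ?_ hdvd
  exact (NT.natCast_mem_iff v N0).1 h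

end Fermat.Agent.LT.Top
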