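import Fermat.Agent.LT.Top.ChainP
import Fermat.Agent.LT.Top.LamK
import Fermat.Agent.LT.T4.Main
import Fermat.Agent.LT.Ty.MatchAll
import Fermat.Agent.LT.Fou.Pack

/-!
# From the theta form on `E` to the automorphic form on `k`
-/

set_option autoImplicit false

noncomputable section

namespace Fermat.Agent.LT.Chain

open Matrix FLT.ExplicitLift NumberField WeierstrassCurve
open Fermat.Agent.LTEnd Fermat.Agent.CFT
open IsDedekindDomain Glob LocFam Fou NT Mp Ty Loc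
open Fermat.Agent.LT.Top
open scoped MatrixGroups

local notation "Qb" => AlgebraicClosure ℚ
local notation "Γℚ" => (AlgebraicClosure ℚ ≃ₐ[ℚ] AlgebraicClosure ℚ)
local notation "G3" => GL (Fin 2) (ZMod 3)
local notation "MZ" => Matrix (Fin 2) (Fin 2) (ℤ√(-2))

section level

variable (k E : Type) [Field k] [NumberField k] [Field E] [NumberField E] [Algebra k E]

open Classical in
/-- the level: principal of level `N ^ n` at the places dividing `N`, maximal elsewhere -/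
def lvlN (N : ℕ) (hN : 0 < N) (n : ℕ) : (locE k E).Level where
  U v := if v ∈ T4.plN k N then PK (OE E v) (N ^ n) else PO (OE E v)
  le v := by
    split_ifs
    · exact PK_le_PO _ _
    · exact le_rfl
  eventually_eq := by
    filter_upwards [(T4.plN k N).finite_toSet.compl_mem_cofinite] with v hv
    rw [if_neg (fun h => hv (Finset.mem_coe.mpr h))]
  deep v := by
    split_ifs
    · exact ⟨N ^ n, pow_ne_zero _ hN.ne', le_rfl⟩
    · exact ⟨1, one_ne_zero, (PK_one _).le⟩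

variable {k E}

theorem lvlN_mem {N : ℕ} (hN : 0 < N) (n : ℕ) {v : HeightOneSpectrum (𝓞 k)}
    (hv : v ∈ T4.plN k N) : (lvlN k E N hN n).U v = PK (OE E v) (N ^ n) := by
  classical
  exact if_pos hv

theorem lvlN_notMem {N : ℕ} (hN : 0 < N) (n : ℕ) {v : HeightOneSpectrum (𝓞 k)}
    (hv : v ∉ T4.plN k N) : (lvlN k E N hN n).U v = PO (OE E v) := by
  classical
  exact if_neg hv

end level

section lam

variable (Ψ : G3 →* GL (Fin 2) (ℤ√(-2))) (ι : ℤ√(-2) →+* ℂ)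

/-- real part of the trace -/
def trR (g : G3) : ℝ := (ι (Ψ g : MZ).trace).re

variable {Ψ ι}

theorem trR_conj (g h : G3) : trR Ψ ι (h * g * h⁻¹) = trR Ψ ι g := by
  rw [trR, tr_conj, trR]

theorem trR_one : trR Ψ ι 1 = 2 := by
  rw [trR, tr_one]; norm_num

theorem trR_neg_one (hΨ : ∀ g, Matrix.GeneralLinearGroup.map red (Ψ g) = g) :
    trR Ψ ι (-1) = -2 := by
  rw [trR, tr_neg_one hΨ]; norm_num

theorem trR_ord4 (hΨ : ∀ g, Matrix.GeneralLinearGroup.map red (Ψ g) = g) {g : G3} (hg : g ∈ Q8)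
    (h : g * g = -1) : trR Ψ ι g = 0 := by
  rw [trR, tr_ord4 hΨ ((mem_Q8 _).mp hg).1 h]; rfl

theorem trR_coe (hΨ : ∀ g, Matrix.GeneralLinearGroup.map red (Ψ g) = g) {g : G3}
    (hg : g ∈ Q8) : ((trR Ψ ι g : ℝ) : ℂ) = ι (Ψ g : MZ).trace := by
  by_cases h1 : g = 1
  · subst h1; rw [trR_one, tr_one]; norm_num
  by_cases h2 : g = -1
  · subst h2; rw [trR_neg_one hΨ, tr_neg_one hΨ]; norm_num
  · have h3 := sq_eq_neg_one hg h1 h2
    rw [sq] at h3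
    rw [trR_ord4 hΨ hg h3, tr_ord4 hΨ ((mem_Q8 _).mp hg).1 h3]; norm_num

variable {ρ : Γℚ →* G3}

theorem resChar_fib {k E : Type*} [Field k] [NumberField k] [Field E] [NumberField E]
    [Algebra k E] [Algebra k Qb] [Algebra E Qb] {v : HeightOneSpectrum (𝓞 k)} (w : Fib E v) :
    resChar w.1 = resChar v :=
  resChar_eq (resChar_prime v) ((T4.natCast_mem_fib w).2 (resChar_mem v))

/-- the eigenvalues at the places of `E` -/
def lamE (ρ : Γℚ →* G3) (Ψ : G3 →* GL (Fin 2) (ℤ√(-2))) (ι : ℤ√(-2) →+* ℂ)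
    [NumberField (EF ρ)] (w : HeightOneSpectrum (𝓞 (EF ρ))) : ℝ := lamV ρ (trR Ψ ι) w

variable [NumberField (EF ρ)]

theorem lamE_eq {w : HeightOneSpectrum (𝓞 (EF ρ))} (hun : UnrAt ρ (resChar w))
    {A : ValuationSubring Qb} {f : Γℚ} (h : IsFrobV (EF ρ) w A f) :
    lamE ρ Ψ ι w = trR Ψ ι (ρ f) :=
  lamV_eq (trR Ψ ι) (fun g h => trR_conj g h) hun h

theorem lamE_coe (hρ : Continuous ρ) (hΨ : ∀ g, Matrix.GeneralLinearGroup.map red (Ψ g) = g)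
    {w : HeightOneSpectrum (𝓞 (EF ρ))} (hun : UnrAt ρ (resChar w))
    {A : ValuationSubring Qb} {f : Γℚ} (h : IsFrobV (EF ρ) w A f) :
    ((lamE ρ Ψ ι w : ℝ) : ℂ) = ι (Ψ (ρ f) : MZ).trace := by
  rw [lamE_eq hun h, trR_coe hΨ ((mem_GF_fixF hρ).1 h.fix)]

theorem exists_frobV {F : Type*} [Field F] [NumberField F] [Algebra F Qb]
    (v : HeightOneSpectrum (𝓞 F)) : ∃ A φ, IsFrobV F v A φ := by
  obtain ⟨A, hA⟩ := exists_place v
  obtain ⟨φ, hφ⟩ := exists_isFrobV hA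
  exact ⟨A, φ, hφ⟩

variable [NumberField (kF ρ)]

theorem lamE_of_split (hρ : Continuous ρ) {v : HeightOneSpectrum (𝓞 (kF ρ))}
    (hun : UnrAt ρ (resChar v)) {A : ValuationSubring Qb} {f : Γℚ}
    (hf : IsFrobV (kF ρ) v A f) (hQ : ρ f ∈ Q8) (w : Fib (EF ρ) v) :
    lamE ρ Ψ ι w.1 = trR Ψ ι (ρ f) := by
  obtain ⟨A1, f1, h1⟩ := exists_frobV w.1
  obtain ⟨τ, -, hτ⟩ := (split_fib hρ hun hf hQ w.2).2 A1 f1 h1
  rw [lamE_eq (by rw [resChar_fib]; exact hun) h1, hτ, trR_conj]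

theorem lamE_fib (hρ : Continuous ρ) (hs : Function.Surjective ρ)
    {v : HeightOneSpectrum (𝓞 (kF ρ))} (hun : UnrAt ρ (resChar v)) (w w' : Fib (EF ρ) v) :
    lamE ρ Ψ ι w.1 = lamE ρ Ψ ι w'.1 := by
  obtain ⟨A, f, hf⟩ := exists_frobV v
  by_cases hQ : ρ f ∈ Q8
  · rw [lamE_of_split hρ hun hf hQ w, lamE_of_split hρ hun hf hQ w']
  · haveI := isGalois_KE hρ
    have h1 := card_fib_of_notMem (hGE hρ) (by rw [finrank_KE hρ hs]; exact Nat.prime_three)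
      hun hf hQ
    have h2 : Subsingleton (Fib (EF ρ) v) := (Nat.card_eq_one_iff_unique.mp h1).1
    rw [Subsingleton.elim w w']

theorem lamE_splitFrob {P : G3 → Prop} {v : HeightOneSpectrum (𝓞 (kF ρ))}
    (h : SplitFrob ρ (EF ρ) P v) {c : ℝ} (hc : ∀ g, P g → trR Ψ ι g = c) (w : Fib (EF ρ) v) :
    lamE ρ Ψ ι w.1 = c := by
  obtain ⟨A1, f1, h1⟩ := exists_frobV w.1
  rw [lamE_eq (by rw [resChar_fib]; exact h.unr) h1]
  exact hc _ (h.frobE w.1 w.2 A1 f1 h1)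

end lam

section main

variable {ρ : Γℚ →* G3} {Ψ : G3 →* GL (Fin 2) (ℤ√(-2))} {ι : ℤ√(-2) →+* ℂ}

/-- **Everything before the descent.** -/
theorem pre [NumberField (kF ρ)] [NumberField (EF ρ)] [NumberField (LF u0 ρ)]
    [IsTotallyComplex (kF ρ)] [IsTotallyComplex (EF ρ)]
    (hρ : Continuous ρ) (hs : Function.Surjective ρ) (hd : DetCyc ρ)
    (hΨ : ∀ g, Matrix.GeneralLinearGroup.map red (Ψ g) = g)
    (hT : T4DInst ρ Ψ ι) {σ : EF ρ ≃ₐ[kF ρ] EF ρ} (h3 : Gal3 σ) (hc : Tw.Cyc3 σ)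
    (hD : Descent (kF ρ) (EF ρ) σ) :
    ∃ (N : ℕ) (v0 : HeightOneSpectrum (𝓞 (kF ρ))) (U' : (locK (kF ρ)).Level)
      (φ : HF (kF ρ) × D U' → ℂ) (mu : HeightOneSpectrum (𝓞 (kF ρ)) → ℝ),
      N ≠ 0 ∧ (∀ p : ℕ, p.Prime → ¬ p ∣ N → UnrAt ρ p) ∧ AutForm φ ∧ (∃ x, φ x ≠ 0) ∧
      ∀ v : HeightOneSpectrum (𝓞 (kF ρ)), (N : 𝓞 (kF ρ)) ∉ v.asIdeal → v ≠ v0 →
        U'.U v = PO ((locK (kF ρ)).O v) ∧
        HeckeAt (HK v) (((√((v.asIdeal.absNorm : ℕ) : ℝ) : ℝ) : ℂ) * ((mu v : ℝ) : ℂ)) φ ∧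
        (IsSpl σ v → ∀ w : Fib (EF ρ) v, mu v = lamE ρ Ψ ι w.1) := by
  obtain ⟨N0, hN0, hT⟩ := hT
  obtain ⟨N1, hN1, hcl⟩ := T4.exists_classOne_plN (k := kF ρ) (E := EF ρ)
  obtain ⟨N2, hN2, h2⟩ := Mp.exists_unr h3
  obtain ⟨N3, hN3, hpar⟩ := exists_par (EF ρ)
  obtain ⟨N4, hN4, h4⟩ := exists_unr' hρ
  obtain ⟨N, hN, d0, d1, d2, d3, d4⟩ : ∃ N : ℕ, 0 < N ∧ N0 ∣ N ∧ N1 ∣ N ∧ N2 ∣ N ∧ N3 ∣ N ∧
      N4 ∣ N := by
    refine ⟨N0 * N1 * N2 * N3 * N4, ?_, ?_, ?_, ?_, ?_, ?_⟩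
    · have := Nat.pos_of_ne_zero hN2
      have := Nat.pos_of_ne_zero hN3
      have := Nat.pos_of_ne_zero hN4
      positivity
    · exact ⟨N1 * N2 * N3 * N4, by ring⟩
    · exact ⟨N0 * N2 * N3 * N4, by ring⟩
    · exact ⟨N0 * N1 * N3 * N4, by ring⟩
    · exact ⟨N0 * N1 * N2 * N4, by ring⟩
    · exact ⟨N0 * N1 * N2 * N3, by ring⟩
  have hunr : ∀ p : ℕ, p.Prime → ¬ p ∣ N → UnrAt ρ p := fun p hp hpN =>
    h4 p hp fun h => hpN (h.trans d4)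
  obtain ⟨T, hTN, hlam⟩ := hT N hN d0
  subst hTN
  obtain ⟨δ0, j0, hT4⟩ := T4.t4_main (k := kF ρ) T
  obtain ⟨δ, hδ0, hδ1⟩ : ∃ δ : ℕ, δ0 ≤ δ ∧ 1 ≤ δ := ⟨max δ0 1, le_max_left _ _, le_max_right _ _⟩
  have hdual : ∀ a : EF ρ, IsDual 1 a → IsIntegral ℤ (((T.N ^ δ : ℕ) : EF ρ) * a) := by
    obtain ⟨P, hP1, hP2, -⟩ := hpar T.N hN.ne' d3 δ hδ1 0
    have h := P.dual
    rwa [hP1, hP2] at h
  obtain ⟨j1, hj1⟩ := matchAll h3 T.N δ hN.ne' hdual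
  obtain ⟨j, hj0, hj1', hjδ⟩ : ∃ j : ℕ, j0 ≤ j ∧ j1 ≤ j ∧ δ ≤ j :=
    ⟨j0 + j1 + δ, by omega, by omega, by omega⟩
  obtain ⟨n, hn⟩ := hj1 j hj1' hjδ (3 * j + δ) le_rfl
  let B : BadType σ :=
    { P := ⟨T.N, j, δ, hN.ne', hdual⟩
      n1 := 3 * j + δ
      n := n
      hδ := hjδ
      hj := (by omega : j ≠ 0)
      hn1 := le_rfl
      hunr := fun v hv => h2 T.N d2 v hv
      hm := hn }
  obtain ⟨v0, hv0, hS0⟩ := exists_v0_KE hρ hs hd T.N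
  have hv0N : ((T.N : ℕ) : 𝓞 (kF ρ)) ∉ v0.asIdeal := by
    rw [natCast_mem_iff]
    exact fun h => absurd (Nat.le_of_dvd hN h) (not_le.mpr hv0)
  have hmem : ∀ v : HeightOneSpectrum (𝓞 (kF ρ)), v ∈ T4.plN (kF ρ) T.N ↔
      ((T.N : ℕ) : 𝓞 (kF ρ)) ∈ v.asIdeal := fun v => T4.mem_plN hN
  have hur : ∀ v : HeightOneSpectrum (𝓞 (kF ρ)), ((T.N : ℕ) : 𝓞 (kF ρ)) ∉ v.asIdeal →
      UnrAt ρ (resChar v) := fun v hv => hunr _ (resChar_prime v) fun h =>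
        hv ((natCast_mem_iff v T.N).mpr h)
  obtain ⟨φ, hφ⟩ := hT4 ⟨T.N, j, δ, hN.ne', hdual⟩ rfl hδ0 hj0 (by omega : j ≠ 0)
    (hcl T.N hN d1) (lvlN (kF ρ) (EF ρ) T.N hN (3 * j + δ)) (fun v hv => lvlN_notMem hN _ hv)
    (3 * j + δ) le_rfl (fun v hv => (lvlN_mem hN _ hv).le)
  have hne : ∃ x, φ x ≠ 0 := by
    by_contra hcon
    push Not at hcon
    exact AutForm.ne_zero_of_cof (fun _ => (⟨0, 1, one_pos⟩ : H3)) hφ.aut.toIsInv (hφ.cof _)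
      (funext hcon)
  obtain ⟨U', φ', mu, ha, hx, hv⟩ := hD h3 hc (finrank_KE hρ hs) B v0 hv0N
    (exists_isSplitIdem_of_card' h3 hS0.card) (lamE ρ Ψ ι)
    (fun N' hN' => by
      obtain ⟨π, v, hv1, hv2, -, hv3⟩ := exists_kill_KE hρ hs hd N' (Nat.pos_of_ne_zero hN') 0
      exact ⟨π, v, hv1, hv2, exists_isSplitIdem_of_card' h3 hv3.card, fun w =>
        lamE_splitFrob hv3 (fun g hg => by rw [hg, trR_neg_one hΨ]) w⟩)
    (fun v hv w w' => lamE_fib hρ hs (hur v hv) w w')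
    (fun w => lamE_splitFrob hS0 (fun g hg => trR_ord4 hΨ hg.1 hg.2) w)
    (lvlN (kF ρ) (EF ρ) T.N hN (3 * j + δ))
    (fun v hv => lvlN_notMem hN _ fun h => hv ((hmem v).1 h))
    (fun v hv => lvlN_mem hN _ ((hmem v).2 hv))
    φ hφ.aut hne (fun v hv => hφ.eqv v ((hmem v).2 hv))
    (fun v hv w => by
      have hv' : v ∉ T4.plN (kF ρ) T.N := fun h => hv ((hmem v).1 h)
      have hw : ((T.N : ℕ) : 𝓞 (EF ρ)) ∉ w.1.asIdeal := fun h =>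
        hv ((T4.natCast_mem_fib w).1 h)
      obtain ⟨π, hπ⟩ := T4.exists_isGen (hcl T.N hN d1) hv' (HE w)
      have hA := T4.adic_locE (kF ρ) (EF ρ) hN
      have hpr := hπ.prime hA hv' (unif_OE w)
      have hval := T4.IsGen.valuation hN hπ w.1 hw
      rw [if_pos rfl] at hval
      obtain ⟨A, f, hf⟩ := exists_frobV w.1
      have hL := hlam w.1 hw ⟨π, hπ.mem_SI hA⟩ hpr hval A f hf
      have h5 := T4.T4D.IsLam.eq_A hpr hL
      have h6 : T4.uS (⟨π, hπ.mem_SI hA⟩ : T4.SI T.N (EF ρ)) hpr.ne_zero = π := Units.ext rfl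
      rw [h6, ← lamE_coe hρ hΨ (by rw [resChar_fib]; exact hur v hv) hf] at h5
      have h7 := hφ.hecke v hv' w π hπ
      rwa [← h5] at h7)
  exact ⟨T.N, v0, U', φ', mu, hN.ne', hunr, ha, hx, hv⟩

end main

end Fermat.Agent.LT.Chain
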